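import Fermat.Agent.GT.Val.Inst.NormDefs

/-!
# GT-VAL, layer Inst, file NormVal: `Glue.NormVal` for the two norms, `Glue.ConstRes`

`red_ins2`: `(N2 a)(t^q) = ∏_j a(ζ^j t) ≡ a^q` (`gredFun_scaleHom`, `root_sub_one_mem_nonunits`), transfer
from `R'` to `R` by `gredFun_coeffMap_eq_iff` / `isGInt_coeffMap_iff`.
`red_ab1`: `N1 a = a ∏_a ι_a(a)`; `a ≡ ya` at `∞`; `a ≡ yb` at `Omid ζ = Omid (ζ^a)` (`Omid_eq`), so
`gredFun (midHom (ζ^a) a) = gredFun (midHom (ζ^a) (up yb)) = gredFun (coeffMap yb)` (`midHom_of_mem`).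
`red_ins1`, `red_ab2`: conjugate by `w` (`H.swap`, `wQ_sq_up`, `wQ_sq_qExpand`, `wQ_mem_Omid_iff`,
`wQ_mem_Ozero_iff`).
-/

set_option autoImplicit false

set_option synthInstance.maxHeartbeats 400000

set_option linter.unusedSectionVars false

namespace Fermat.Agent.GT.Val

open Fermat.Agent.GR Fermat.Agent.GR.E Fermat.Agent.GR.D.Vert Fermat.Agent.GT.EMB ModularCurve

open Fermat.Agent.GT.Glue

noncomputable section

variable {L L' : Type} [Field L] [Field L'] [Algebra L L']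
  {R : ValuationSubring L} [IsDiscreteValuationRing R]
  {R' : ValuationSubring L'} [IsDiscreteValuationRing R']
  {q M0 : ℕ} [NeZero q] [NeZero M0] [NeZero (q * M0)] [NeZero (q ^ 2 * M0)] {ζ : L'ˣ} {ϖ : R}

variable {N1 N2 : FF L (q ^ 2 * M0) →* FF L (q * M0)}

/-! ### the maps `phi1`, `phi2` and the valuations -/

theorem phi2_mem_Oinf (f : FF L (q * M0)) :
    phi2 R q M0 f ∈ Oinf R q M0 ↔ f ∈ gaussO R (q * M0) := by
  rw [mem_Oinf, phi2_apply, coe_V2, isGInt_qExpand_iff q (bdd_coe_FF f)]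
  exact Iff.rfl

/-- `w_{q²} (f(t^q)) = w_q f` -/
theorem phi2_mem_Ozero (C : Ctx R R' q M0 ζ ϖ) (f : FF L (q * M0)) :
    phi2 R q M0 f ∈ Ozero R q M0 ↔ f ∈ Ozero' R q M0 := by
  obtain ⟨ι⟩ := C.exists_embC'
  have hmem : qExpand L q (f : LaurentSeries L) ∈ FF L (q ^ 2 * M0) := (V2 L q M0 f).2
  have h1 : phi2 R q M0 f = ⟨qExpand L q (f : LaurentSeries L), hmem⟩ := rfl
  rw [mem_Ozero, mem_Ozero', h1, wQ_sq_qExpand ι C.prime C.ndvd f hmem]

/-- `midHom (f(t^q)) = (w_q f)(ζ t)` (`iotaMid_qExpand`) -/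
theorem phi2_mem_Omid (C : Ctx R R' q M0 ζ ϖ) (f : FF L (q * M0)) :
    phi2 R q M0 f ∈ Omid (L := L) R' q M0 ζ ↔ f ∈ Ozero' R q M0 := by
  obtain ⟨ι'⟩ := C.exists_embC
  have hcop : q.Coprime M0 := (Nat.Prime.coprime_iff_not_dvd C.prime).2 C.ndvd
  set f' : FF L' (q * M0) := mapFF (algebraMap L L') (q * M0) f with hf'
  have hmem : qExpand L' q (f' : LaurentSeries L') ∈ FF L' (q ^ 2 * M0) := (V2 L' q M0 f').2
  have h1 : mapFF (algebraMap L L') (q ^ 2 * M0) (phi2 R q M0 f) =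
      ⟨qExpand L' q (f' : LaurentSeries L'), hmem⟩ := by
    apply Subtype.ext
    rw [coe_mapFF, phi2_apply, coe_V2, coeffMap_qExpand]
    change _ = qExpand L' q (f' : LaurentSeries L')
    rw [hf', coe_mapFF]
  have h2 : midHom q M0 ζ (phi2 R q M0 f) =
      scaleHom ζ (coeffMap (algebraMap L L') (wQ L q M0 f : LaurentSeries L)) := by
    change iotaMid L' q M0 ζ (mapFF (algebraMap L L') (q ^ 2 * M0) (phi2 R q M0 f)) = _
    rw [h1, iotaMid_qExpand ι' C.prime C.ndvd ζ C.root f' hmem, hf',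
      ← mapFF_wQ ι' (algebraMap L L') q M0 hcop f, coe_mapFF]
  obtain ⟨hζ1, hζ2⟩ := root_mem (RK := R') C.prime.pos ζ C.root.pow_eq_one
  rw [mem_Omid C, h2, mem_Ozero', ← isGInt_coeffMap_iff C.comap (bdd_coe_FF (wQ L q M0 f))]
  constructor
  · intro h
    have h3 := isGInt_scaleHom ζ⁻¹ hζ2 (by rw [inv_inv]; exact hζ1) h
    have h4 : ∀ x : LaurentSeries L', scaleHom ζ⁻¹ (scaleHom ζ x) = x := by
      intro x
      ext n
      rw [scaleHom_coeff, scaleHom_coeff, ← mul_assoc, ← Units.val_mul, ← mul_zpow,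
        inv_mul_cancel, one_zpow, Units.val_one, one_mul]
    rwa [h4] at h3
  · exact isGInt_scaleHom ζ hζ1 hζ2

/-- ABSTRACT: if `φ y ∈ V ↔ y ∈ V'` for all `y` then the same holds for the maximal ideals. -/
theorem mem_nonunits_iff_of_comap {F F' : Type*} [Field F] [Field F'] (φ : F' →+* F)
    {V : ValuationSubring F} {V' : ValuationSubring F'} (h : ∀ y, φ y ∈ V ↔ y ∈ V') (y : F') :
    φ y ∈ V.nonunits ↔ y ∈ V'.nonunits := by
  rw [Basic_mem_nonunits_iff, Basic_mem_nonunits_iff, ← map_inv₀, h, map_eq_zero_iff φ φ.injective]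

/-! ### reductions of the norms -/

/-- products of Gauss-integral series. -/
theorem NormVal_prod {K : Type*} [Field K] {RK : ValuationSubring K} [IsDiscreteValuationRing RK]
    {ι : Type*} (s : Finset ι) (f : ι → LaurentSeries K) (hf : ∀ i ∈ s, IsGInt RK (f i)) :
    IsGInt RK (∏ i ∈ s, f i) ∧ gredFun RK (∏ i ∈ s, f i) = ∏ i ∈ s, gredFun RK (f i) := by
  classical
  induction s using Finset.induction_on with
  | empty =>
    rw [Finset.prod_empty, Finset.prod_empty]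
    exact ⟨isGInt_one, gredFun_one⟩
  | insert i s hi ih =>
    obtain ⟨h1, h2⟩ := ih (fun j hj => hf j (Finset.mem_insert_of_mem hj))
    have h0 := hf i (Finset.mem_insert_self i s)
    rw [Finset.prod_insert hi, Finset.prod_insert hi]
    exact ⟨h0.mul h1, by rw [gredFun_mul h0 h1, h2]⟩

theorem NormVal_pow {K : Type*} [Field K] {RK : ValuationSubring K} [IsDiscreteValuationRing RK]
    {x : LaurentSeries K} (hx : IsGInt RK x) (n : ℕ) :
    IsGInt RK (x ^ n) ∧ gredFun RK (x ^ n) = gredFun RK x ^ n := by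
  have h := NormVal_prod (Finset.range n) (fun _ => x) (fun _ _ => hx)
  rwa [Finset.prod_const, Finset.prod_const, Finset.card_range] at h

theorem red_ins2 (C : Ctx R R' q M0 ζ ϖ) (H : NormHyp q M0 ζ N1 N2) {a : FF L (q ^ 2 * M0)}
    (ha : a ∈ Oinf R q M0) : phi2 R q M0 (N2 a) - a ^ q ∈ (Oinf R q M0).nonunits := by
  have hx : IsGInt R (a : LaurentSeries L) := mem_Oinf.1 ha
  have hx' : IsGInt R' (coeffMap (algebraMap L L') (a : LaurentSeries L)) :=
    isGInt_coeffMap C.comap hx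
  -- the factors
  have hfac : ∀ j ∈ Finset.range q,
      IsGInt R' (scaleHom (ζ ^ j) (coeffMap (algebraMap L L') (a : LaurentSeries L))) ∧
      gredFun R' (scaleHom (ζ ^ j) (coeffMap (algebraMap L L') (a : LaurentSeries L))) =
        gredFun R' (coeffMap (algebraMap L L') (a : LaurentSeries L)) := by
    intro j _
    refine gredFun_scaleHom (ζ ^ j) ?_ hx'
    refine root_sub_one_mem_nonunits C.prime C.q_mem_nonunits (ζ ^ j) ?_
    rw [← pow_mul, mul_comm, pow_mul, C.root.pow_eq_one, one_pow]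
  obtain ⟨hP1, hP2⟩ := NormVal_prod (Finset.range q)
    (fun j => scaleHom (ζ ^ j) (coeffMap (algebraMap L L') (a : LaurentSeries L)))
    (fun j hj => (hfac j hj).1)
  rw [Finset.prod_congr rfl (fun j hj => (hfac j hj).2), Finset.prod_const, Finset.card_range]
    at hP2
  -- the expansion of `phi2 (N2 a)`
  have hcoe : ((phi2 R q M0 (N2 a) : FF L (q ^ 2 * M0)) : LaurentSeries L) =
      qExpand L q (N2 a : LaurentSeries L) := by
    rw [phi2_apply, coe_V2]
  have hmap : coeffMap (algebraMap L L')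
      ((phi2 R q M0 (N2 a) : FF L (q ^ 2 * M0)) : LaurentSeries L) =
      ∏ j ∈ Finset.range q, scaleHom (ζ ^ j) (coeffMap (algebraMap L L') (a : LaurentSeries L)) := by
    rw [hcoe, coeffMap_qExpand, H.prod2]
  have hX : IsGInt R ((phi2 R q M0 (N2 a) : FF L (q ^ 2 * M0)) : LaurentSeries L) := by
    rw [← isGInt_coeffMap_iff C.comap (bdd_coe_FF _), hmap]
    exact hP1
  obtain ⟨hq1, -⟩ := NormVal_pow hx q
  obtain ⟨-, hq2'⟩ := NormVal_pow hx' q
  have hred : gredFun R ((phi2 R q M0 (N2 a) : FF L (q ^ 2 * M0)) : LaurentSeries L) =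
      gredFun R ((a : LaurentSeries L) ^ q) := by
    rw [← gredFun_coeffMap_eq_iff C.comap hX hq1, hmap, hP2, map_pow, hq2']
  have hu : phi2 R q M0 (N2 a) ∈ gaussO R (q ^ 2 * M0) := mem_gaussO.2 hX
  have hv : a ^ q ∈ gaussO R (q ^ 2 * M0) := pow_mem ha q
  change phi2 R q M0 (N2 a) - a ^ q ∈ (gaussO R (q ^ 2 * M0)).nonunits
  rw [sub_mem_nonunits_gaussO hu hv, hred, IntermediateField.coe_pow]

/-- a product of Gauss-integral series all having the same reduction. -/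
theorem NormVal_prod_const {K : Type*} [Field K] {RK : ValuationSubring K}
    [IsDiscreteValuationRing RK] {ι : Type*} (s : Finset ι) (f : ι → LaurentSeries K)
    (c : LaurentSeries (IsLocalRing.ResidueField RK))
    (h : ∀ i ∈ s, IsGInt RK (f i) ∧ gredFun RK (f i) = c) :
    IsGInt RK (∏ i ∈ s, f i) ∧ gredFun RK (∏ i ∈ s, f i) = c ^ s.card := by
  classical
  induction s using Finset.induction_on with
  | empty =>
    rw [Finset.prod_empty, Finset.card_empty, pow_zero]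
    exact ⟨isGInt_one, gredFun_one⟩
  | insert a s ha ih =>
    obtain ⟨h1, h2⟩ := ih fun i hi => h i (Finset.mem_insert_of_mem hi)
    obtain ⟨h3, h4⟩ := h a (Finset.mem_insert_self a s)
    rw [Finset.prod_insert ha, Finset.card_insert_of_notMem ha]
    refine ⟨h3.mul h1, ?_⟩
    rw [gredFun_mul h3 h1, h2, h4, pow_succ, mul_comm]

/-- `x - y ∈ 𝔪`, `y` integral: `x` is integral with the same reduction. -/
theorem NormVal_of_sub {K : Type*} [Field K] {RK : ValuationSubring K}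
    [IsDiscreteValuationRing RK] {x y : LaurentSeries K} (hy : IsGInt RK y)
    (h : IsGInt RK (x - y)) (h0 : gredFun RK (x - y) = 0) :
    IsGInt RK x ∧ gredFun RK x = gredFun RK y := by
  have hx : x = (x - y) + y := by ring
  refine ⟨by rw [hx]; exact h.add hy, ?_⟩
  conv_lhs => rw [hx]
  rw [gredFun_add h hy, h0, zero_add]

theorem red_ab1 (C : Ctx R R' q M0 ζ ϖ) (H : NormHyp q M0 ζ N1 N2) (a : FF L (q ^ 2 * M0))
    (ya yb : FF L (q * M0)) (hya : ya ∈ gaussO R (q * M0)) (hyb : yb ∈ gaussO R (q * M0))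
    (ha : a - phi1 R q M0 ya ∈ (Oinf R q M0).nonunits)
    (hb : a - phi1 R q M0 yb ∈ (Omid (L := L) R' q M0 ζ).nonunits) :
    N1 a - ya * yb ^ (q - 1) ∈ (gaussO R (q * M0)).nonunits := by
  classical
  have hya' : IsGInt R (ya : LaurentSeries L) := hya
  have hyb' : IsGInt R (yb : LaurentSeries L) := hyb
  -- at infinity
  rw [phi1_apply] at ha hb
  obtain ⟨ha1, ha2⟩ := mem_nonunits_Oinf.1 ha
  rw [AddSubgroupClass.coe_sub, coe_up] at ha1 ha2
  obtain ⟨hai, har⟩ := NormVal_of_sub hya' ha1 ha2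
  have hai' : IsGInt R' (coeffMap (algebraMap L L') (a : LaurentSeries L)) :=
    isGInt_coeffMap C.comap hai
  have har' : gredFun R' (coeffMap (algebraMap L L') (a : LaurentSeries L)) =
      gredFun R' (coeffMap (algebraMap L L') (ya : LaurentSeries L)) :=
    (gredFun_coeffMap_eq_iff C.comap hai hya').2 har
  have hybi' : IsGInt R' (coeffMap (algebraMap L L') (yb : LaurentSeries L)) :=
    isGInt_coeffMap C.comap hyb'
  have hyai' : IsGInt R' (coeffMap (algebraMap L L') (ya : LaurentSeries L)) :=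
    isGInt_coeffMap C.comap hya'
  -- at the middle cusps
  have hmid : ∀ j ∈ Finset.Ico 1 q, IsGInt R' (midHom q M0 (ζ ^ j) a) ∧
      gredFun R' (midHom q M0 (ζ ^ j) a) =
        gredFun R' (coeffMap (algebraMap L L') (yb : LaurentSeries L)) := by
    intro j hj
    obtain ⟨hj1, hj2⟩ := Finset.mem_Ico.1 hj
    have hcop : j.Coprime q := by
      rw [Nat.coprime_comm]
      exact (Nat.Prime.coprime_iff_not_dvd C.prime).2 (Nat.not_dvd_of_pos_of_lt hj1 hj2)
    have hprim : IsPrimitiveRoot (ζ ^ j) q := C.root.pow_of_coprime j hcop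
    have C' : Ctx R R' q M0 (ζ ^ j) ϖ := { C with root := hprim }
    have hb' : a - up (dvd_sq q M0) yb ∈ (Omid (L := L) R' q M0 (ζ ^ j)).nonunits := by
      rw [Omid_eq C (ζ ^ j) hprim]; exact hb
    obtain ⟨hb1, hb2⟩ := (mem_nonunits_Omid C').1 hb'
    have hup : midHom q M0 (ζ ^ j) (up (dvd_sq q M0) yb) =
        coeffMap (algebraMap L L') (yb : LaurentSeries L) := by
      rw [midHom_of_mem C' (up (dvd_sq q M0) yb) (by rw [coe_up]; exact yb.2), coe_up]
    rw [map_sub, hup] at hb1 hb2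
    exact NormVal_of_sub hybi' hb1 hb2
  obtain ⟨hp1, hp2⟩ := NormVal_prod_const _ _ _ hmid
  rw [Nat.card_Ico] at hp2
  -- the norm
  have hN := H.prod1 a
  have hNi' : IsGInt R' (coeffMap (algebraMap L L') (N1 a : LaurentSeries L)) := by
    rw [hN]; exact hai'.mul hp1
  have hNi : IsGInt R (N1 a : LaurentSeries L) :=
    (isGInt_coeffMap_iff C.comap (bdd_coe_FF _)).1 hNi'
  have hyi : IsGInt R ((ya * yb ^ (q - 1) : FF L (q * M0)) : LaurentSeries L) := by
    rw [IntermediateField.coe_mul, IntermediateField.coe_pow]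
    exact hya'.mul (hyb'.pow _)
  rw [sub_mem_nonunits_gaussO hNi hyi, ← gredFun_coeffMap_eq_iff C.comap hNi hyi, hN,
    gredFun_mul hai' hp1, hp2, har', IntermediateField.coe_mul, IntermediateField.coe_pow,
    map_mul, map_pow, gredFun_mul hyai' (hybi'.pow _), gredFun_pow hybi']

/-- `w_{q²} (up f) = (w_q f)(t^q)`. -/
theorem normVal_wQ_phi1 (C : Ctx R R' q M0 ζ ϖ) (f : FF L (q * M0)) :
    wQ L (q ^ 2) M0 (phi1 R q M0 f) = phi2 R q M0 (wQ L q M0 f) := by
  apply Subtype.ext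
  rw [phi1_apply, wQ_sq_up C, phi2_apply, coe_V2]

/-- `w_{q²} (f(t^q)) = up (w_q f)`. -/
theorem normVal_wQ_phi2 (C : Ctx R R' q M0 ζ ϖ) (f : FF L (q * M0)) :
    wQ L (q ^ 2) M0 (phi2 R q M0 f) = phi1 R q M0 (wQ L q M0 f) := by
  obtain ⟨ι⟩ := C.exists_embC'
  apply Subtype.ext
  rw [phi1_apply, coe_up, ← wQ_sq_qExpand ι C.prime C.ndvd f (V2 L q M0 f).2]
  rfl

theorem normVal_mem_nonunits_Ozero {x : FF L (q ^ 2 * M0)} :
    x ∈ (Ozero R q M0).nonunits ↔ wQ L (q ^ 2) M0 x ∈ (Oinf R q M0).nonunits := by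
  rw [mem_nonunits_Ozero, mem_nonunits_Oinf]

theorem normVal_mem_nonunits_Ozero' {x : FF L (q * M0)} :
    x ∈ (Ozero' R q M0).nonunits ↔ wQ L q M0 x ∈ (gaussO R (q * M0)).nonunits := by
  rw [mem_nonunits_Ozero', mem_nonunits_gaussO]

theorem normVal_wQ_mem_nonunits_Omid (C : Ctx R R' q M0 ζ ϖ) (x : FF L (q ^ 2 * M0)) :
    wQ L (q ^ 2) M0 x ∈ (Omid (L := L) R' q M0 ζ).nonunits ↔
      x ∈ (Omid (L := L) R' q M0 ζ).nonunits :=
  mem_nonunits_iff_of_comap
    ((wQ L (q ^ 2) M0 : FF L (q ^ 2 * M0) ≃ₐ[L] FF L (q ^ 2 * M0)) :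
      FF L (q ^ 2 * M0) →+* FF L (q ^ 2 * M0)) (fun y => wQ_mem_Omid_iff C y) x

theorem red_ins1 (C : Ctx R R' q M0 ζ ϖ) (H : NormHyp q M0 ζ N1 N2) {a : FF L (q ^ 2 * M0)}
    (ha : a ∈ Ozero R q M0) : phi1 R q M0 (N1 a) - a ^ q ∈ (Ozero R q M0).nonunits := by
  rw [normVal_mem_nonunits_Ozero, map_sub, map_pow, normVal_wQ_phi1 C, H.swap]
  exact red_ins2 C H (mem_Oinf.mpr (mem_Ozero.mp ha))

theorem red_ab2 (C : Ctx R R' q M0 ζ ϖ) (H : NormHyp q M0 ζ N1 N2) (a : FF L (q ^ 2 * M0))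
    (ya yb : FF L (q * M0)) (hya : ya ∈ Ozero' R q M0) (hyb : yb ∈ Ozero' R q M0)
    (ha : a - phi2 R q M0 ya ∈ (Ozero R q M0).nonunits)
    (hb : a - phi2 R q M0 yb ∈ (Omid (L := L) R' q M0 ζ).nonunits) :
    N2 a - ya * yb ^ (q - 1) ∈ (Ozero' R q M0).nonunits := by
  obtain ⟨ι⟩ := C.exists_embC'
  have e : N2 a = wQ L q M0 (N1 (wQ L (q ^ 2) M0 a)) := by
    rw [H.swap, wQ_wQ ι (q ^ 2) M0 C.coprime_sq]
  rw [normVal_mem_nonunits_Ozero', map_sub, map_mul, map_pow, e, wQ_wQ ι q M0 C.coprime]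
  refine red_ab1 C H _ _ _ (mem_gaussO.mpr (mem_Ozero'.mp hya)) (mem_gaussO.mpr (mem_Ozero'.mp hyb))
    ?_ ?_
  · rw [← normVal_wQ_phi2 C, ← map_sub]
    exact normVal_mem_nonunits_Ozero.mp ha
  · rw [← normVal_wQ_phi2 C, ← map_sub]
    exact (normVal_wQ_mem_nonunits_Omid C _).mpr hb

/-- EXPORT. -/
theorem normVal1 (C : Ctx R R' q M0 ζ ϖ) (H : NormHyp q M0 ζ N1 N2) :
    NormVal q (phi1 R q M0) N1 (Ozero R q M0) (Oinf R q M0) (Omid (L := L) R' q M0 ζ)
      (Ozero' R q M0) (gaussO R (q * M0)) where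
  map_ins y hy := (mem_nonunits_iff_of_comap (phi1 R q M0 : FF L (q * M0) →+* FF L (q ^ 2 * M0))
    (fun f => up_mem_Ozero C f) y).2 hy
  map_a y hy := (mem_nonunits_iff_of_comap (phi1 R q M0 : FF L (q * M0) →+* FF L (q ^ 2 * M0))
    (fun f => up_mem_Oinf f) y).2 hy
  map_b y hy := (mem_nonunits_iff_of_comap (phi1 R q M0 : FF L (q * M0) →+* FF L (q ^ 2 * M0))
    (fun f => up_mem_Omid C f) y).2 hy
  comap_ins y hy := (mem_nonunits_iff_of_comap
    (phi1 R q M0 : FF L (q * M0) →+* FF L (q ^ 2 * M0)) (fun f => up_mem_Ozero C f) y).1 hy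
  red_ins _ ha := red_ins1 C H ha
  red_ab a ya yb hya hyb ha hb := red_ab1 C H a ya yb hya hyb ha hb

/-- EXPORT. -/
theorem normVal2 (C : Ctx R R' q M0 ζ ϖ) (H : NormHyp q M0 ζ N1 N2) :
    NormVal q (phi2 R q M0) N2 (Oinf R q M0) (Ozero R q M0) (Omid (L := L) R' q M0 ζ)
      (gaussO R (q * M0)) (Ozero' R q M0) where
  map_ins y hy := (mem_nonunits_iff_of_comap (phi2 R q M0 : FF L (q * M0) →+* FF L (q ^ 2 * M0))
    (fun f => phi2_mem_Oinf f) y).2 hy
  map_a y hy := (mem_nonunits_iff_of_comap (phi2 R q M0 : FF L (q * M0) →+* FF L (q ^ 2 * M0))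
    (fun f => phi2_mem_Ozero C f) y).2 hy
  map_b y hy := (mem_nonunits_iff_of_comap (phi2 R q M0 : FF L (q * M0) →+* FF L (q ^ 2 * M0))
    (fun f => phi2_mem_Omid C f) y).2 hy
  comap_ins y hy := (mem_nonunits_iff_of_comap
    (phi2 R q M0 : FF L (q * M0) →+* FF L (q ^ 2 * M0)) (fun f => phi2_mem_Oinf f) y).1 hy
  red_ins _ ha := red_ins2 C H ha
  red_ab a ya yb hya hyb ha hb := red_ab2 C H a ya yb hya hyb ha hb

/-! ### constants -/

/-- a Laurent series over a field whose `n`-th power is a nonzero constant is a constant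
(`n` invertible). -/
theorem eq_C_of_pow_eq_C {k : Type*} [Field k] {n : ℕ} (hn : (n : k) ≠ 0) {y : LaurentSeries k}
    {c : k} (hc : c ≠ 0) (h : y ^ n = HahnSeries.C c) : ∃ b : k, y = HahnSeries.C b := by
  have hn0 : n ≠ 0 := by
    rintro rfl
    simp at hn
  have hord : y.order = 0 := by
    have h1 := congrArg HahnSeries.order h
    rw [HahnSeries.order_pow, HahnSeries.order_C] at h1
    rcases smul_eq_zero.1 h1 with h2 | h2
    · exact absurd h2 hn0
    · exact h2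
  -- `y` is a power series
  obtain ⟨Y, rfl⟩ : ∃ Y : PowerSeries k, (Y : LaurentSeries k) = y := by
    refine ⟨y.powerSeriesPart, ?_⟩
    have h1 := LaurentSeries.single_order_mul_powerSeriesPart y
    rw [hord] at h1
    have h2 : (HahnSeries.single (0 : ℤ) (1 : k) : LaurentSeries k) = 1 := rfl
    rwa [h2, one_mul] at h1
  have hY : Y ^ n = PowerSeries.C c := by
    apply HahnSeries.ofPowerSeries_injective (Γ := ℤ) (R := k)
    change ((Y ^ n : PowerSeries k) : LaurentSeries k) = ((PowerSeries.C c : PowerSeries k) : LaurentSeries k)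
    rw [PowerSeries.coe_pow, h, PowerSeries.coe_C]
  set b₀ : k := PowerSeries.constantCoeff Y with hb₀
  have hb : b₀ ^ n = c := by
    have h1 := congrArg PowerSeries.constantCoeff hY
    rwa [map_pow, PowerSeries.constantCoeff_C] at h1
  have hb0 : b₀ ≠ 0 := by
    intro h0
    rw [h0, zero_pow hn0] at hb
    exact hc hb.symm
  set W : PowerSeries k := Y * PowerSeries.C b₀⁻¹ with hW
  have hW1 : PowerSeries.constantCoeff W = 1 := by
    rw [hW, map_mul, PowerSeries.constantCoeff_C, ← hb₀, mul_inv_cancel₀ hb0]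
  have hWn : W ^ n = 1 := by
    rw [hW, mul_pow, hY, ← map_pow, ← map_mul, inv_pow, hb, mul_inv_cancel₀ hc, map_one]
  have hgeom : (W - 1) * ∑ i ∈ Finset.range n, W ^ i = 0 := by
    rw [mul_geom_sum, hWn, sub_self]
  have hsum : ∑ i ∈ Finset.range n, W ^ i ≠ 0 := by
    intro h0
    have h1 := congrArg PowerSeries.constantCoeff h0
    rw [map_sum] at h1
    simp only [map_pow, hW1, one_pow, Finset.sum_const, Finset.card_range, nsmul_eq_mul, mul_one,
      map_zero] at h1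
    exact hn h1
  have hWone : W = 1 := by
    rcases mul_eq_zero.1 hgeom with h1 | h1
    · exact sub_eq_zero.1 h1
    · exact absurd h1 hsum
  refine ⟨b₀, ?_⟩
  have hYb : Y = PowerSeries.C b₀ := by
    have h1 : Y = W * PowerSeries.C b₀ := by
      rw [hW, mul_assoc, ← map_mul, inv_mul_cancel₀ hb0, map_one, mul_one]
    rw [h1, hWone, one_mul]
  rw [hYb, PowerSeries.coe_C]

theorem NormVal_gredFun_algebraMap (N : ℕ) (κ : R) :
    gredFun R ((algebraMap R (FF L N) κ : FF L N) : LaurentSeries L) =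
      HahnSeries.C (IsLocalRing.residue R κ) := by
  rw [coe_algebraMap_C, ← coeffMap_C (algebraMap R L) κ]
  exact (gredFun_emb (L := L) (HahnSeries.C κ)).trans (coeffMap_C _ _)

theorem NormVal_algebraMap_mem (N : ℕ) (κ : R) : algebraMap R (FF L N) κ ∈ gaussO R N := by
  rw [mem_gaussO, coe_algebraMap_C, ← coeffMap_C (algebraMap R L) κ]
  exact isGInt_emb (L := L) (HahnSeries.C κ)

/-- EXPORT. -/
theorem constRes_gaussO (N : ℕ) : ConstRes R (gaussO R N) := by
  intro y n κ hn hκ hy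
  have hn0 : n ≠ 0 := by
    rintro rfl
    simp at hn
  have hκm := NormVal_algebraMap_mem (R := R) N κ
  have hyn : y ^ n ∈ gaussO R N := by
    have h1 : y ^ n - algebraMap R (FF L N) κ ∈ gaussO R N :=
      (gaussO R N).nonunits_subset hy
    have := (gaussO R N).add_mem _ _ h1 hκm
    rwa [sub_add_cancel] at this
  have hym : y ∈ gaussO R N := by
    rw [← ValuationSubring.valuation_le_one_iff] at hyn ⊢
    rw [map_pow] at hyn
    exact (pow_le_one_iff hn0).1 hyn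
  have h1 := (sub_mem_nonunits_gaussO hyn hκm).1 hy
  rw [NormVal_gredFun_algebraMap, IntermediateField.coe_pow, gredFun_pow (mem_gaussO.1 hym)] at h1
  have hnk : ((n : ℕ) : IsLocalRing.ResidueField R) ≠ 0 := by
    have h2 : IsUnit (IsLocalRing.residue R (n : R)) := hn.map _
    rw [map_natCast] at h2
    exact h2.ne_zero
  have hκk : IsLocalRing.residue R κ ≠ 0 := (hκ.map (IsLocalRing.residue R)).ne_zero
  obtain ⟨b, hb⟩ := eq_C_of_pow_eq_C hnk hκk h1
  obtain ⟨β, rfl⟩ := IsLocalRing.residue_surjective (R := R) b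
  refine ⟨β, (sub_mem_nonunits_gaussO hym (NormVal_algebraMap_mem N β)).2 ?_⟩
  rw [NormVal_gredFun_algebraMap, hb]

/-- EXPORT. -/
theorem constRes_Ozero' : ConstRes R (Ozero' R q M0) := by
  intro y n κ hn hκ hy
  have hw : ∀ κ : R, wQ L q M0 (algebraMap R (FF L (q * M0)) κ) = algebraMap R (FF L (q * M0)) κ := by
    intro κ
    rw [IsScalarTower.algebraMap_apply R L (FF L (q * M0)) κ, AlgEquiv.commutes]
  have key : ∀ u : FF L (q * M0), u ∈ (Ozero' R q M0).nonunits ↔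
      wQ L q M0 u ∈ (gaussO R (q * M0)).nonunits := fun u =>
    Basic_mem_nonunits_comap (gaussO R (q * M0)) ((wQ L q M0).toRingEquiv) u
  rw [key, map_sub, map_pow, hw] at hy
  obtain ⟨β, hβ⟩ := constRes_gaussO (R := R) (q * M0) _ n κ hn hκ hy
  refine ⟨β, ?_⟩
  rw [key, map_sub, hw]
  exact hβ

end

end Fermat.Agent.GT.Val
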