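import Fermat.Agent.GT.Val.Inst.Basic

/-!
# GT-VAL, layer Inst, file Change: the three valuation subrings and extension of the constants

`(L, L', R, R', ζ) → (L₁, L₁', R₁, R₁', ζ₁)`.  Tools: `isGInt_coeffMap_iff`, `gredFun_coeffMap_eq_zero_iff`,
`bdd_coe_FF`, `bdd_midHom`, `EMB.mapFF_wQ`, `EMB.coeffMap_iotaMid`.
-/

set_option autoImplicit false
set_option synthInstance.maxHeartbeats 400000
set_option linter.unusedSectionVars false

namespace Fermat.Agent.GT.Val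

open Fermat.Agent.GR Fermat.Agent.GR.E Fermat.Agent.GR.D.Vert Fermat.Agent.GT.EMB ModularCurve

noncomputable section

variable {L L' : Type} [Field L] [Field L'] [Algebra L L']
  {R : ValuationSubring L} [IsDiscreteValuationRing R]
  {R' : ValuationSubring L'} [IsDiscreteValuationRing R']
  {q M0 : ℕ} [NeZero q] [NeZero M0] [NeZero (q * M0)] [NeZero (q ^ 2 * M0)] {ζ : L'ˣ} {ϖ : R}

variable {L₁ L₁' : Type} [Field L₁] [Field L₁'] [Algebra L₁ L₁'] [Algebra L L₁] [Algebra L' L₁']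
  [Algebra L L₁'] [IsScalarTower L L' L₁'] [IsScalarTower L L₁ L₁']
  {R₁ : ValuationSubring L₁} [IsDiscreteValuationRing R₁]
  {R₁' : ValuationSubring L₁'} [IsDiscreteValuationRing R₁'] {ϖ₁ : R₁}

theorem Change_mapFF_mapFF {K₁ K₂ K₃ : Type*} [Field K₁] [Field K₂] [Field K₃] (σ : K₁ →+* K₂)
    (τ : K₂ →+* K₃) (N : ℕ) (x : FF K₁ N) :
    mapFF τ N (mapFF σ N x) = mapFF (τ.comp σ) N x := by
  apply Subtype.ext
  rw [coe_mapFF, coe_mapFF, coe_mapFF, coeffMap_coeffMap]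

theorem mapFF_mem_vfam_iff (C : Ctx R R' q M0 ζ ϖ)
    (C₁ : Ctx R₁ R₁' q M0 (Units.map (algebraMap L' L₁' : L' →* L₁') ζ) ϖ₁)
    (hR : ∀ x : L, algebraMap L L₁ x ∈ R₁ ↔ x ∈ R)
    (hR' : ∀ x : L', algebraMap L' L₁' x ∈ R₁' ↔ x ∈ R') (x : FF L (q ^ 2 * M0)) (i : Fin 3) :
    mapFF (algebraMap L L₁) (q ^ 2 * M0) x ∈
        vfam R₁ R₁' q M0 (Units.map (algebraMap L' L₁' : L' →* L₁') ζ) i ↔
      x ∈ vfam R R' q M0 ζ i := by
  fin_cases i
  · show mapFF (algebraMap L L₁) (q ^ 2 * M0) x ∈ Oinf R₁ q M0 ↔ x ∈ Oinf R q M0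
    rw [mem_Oinf, mem_Oinf, coe_mapFF]
    exact isGInt_coeffMap_iff hR (bdd_coe_FF x)
  · show mapFF (algebraMap L L₁) (q ^ 2 * M0) x ∈
        Omid (L := L₁) R₁' q M0 (Units.map (algebraMap L' L₁' : L' →* L₁') ζ) ↔
      x ∈ Omid (L := L) R' q M0 ζ
    obtain ⟨ι'⟩ := C₁.exists_embC
    rw [mem_Omid C₁, mem_Omid C]
    have h1 : midHom q M0 (Units.map (algebraMap L' L₁' : L' →* L₁') ζ)
        (mapFF (algebraMap L L₁) (q ^ 2 * M0) x) =
        coeffMap (algebraMap L' L₁') (midHom q M0 ζ x) := by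
      show iotaMid L₁' q M0 (Units.map (algebraMap L' L₁' : L' →* L₁') ζ)
          (mapFF (algebraMap L₁ L₁') (q ^ 2 * M0) (mapFF (algebraMap L L₁) (q ^ 2 * M0) x)) =
        coeffMap (algebraMap L' L₁')
          (iotaMid L' q M0 ζ (mapFF (algebraMap L L') (q ^ 2 * M0) x))
      rw [coeffMap_iotaMid ι' (algebraMap L' L₁') C.prime C.ndvd ζ C.root, Change_mapFF_mapFF,
        Change_mapFF_mapFF, ← IsScalarTower.algebraMap_eq, ← IsScalarTower.algebraMap_eq]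
    rw [h1]
    exact isGInt_coeffMap_iff hR' (bdd_midHom C x)
  · show mapFF (algebraMap L L₁) (q ^ 2 * M0) x ∈ Ozero R₁ q M0 ↔ x ∈ Ozero R q M0
    obtain ⟨ι'⟩ := C₁.exists_embC'
    rw [mem_Ozero, mem_Ozero, ← mapFF_wQ ι' (algebraMap L L₁) (q ^ 2) M0 C.coprime_sq, coe_mapFF]
    exact isGInt_coeffMap_iff hR (bdd_coe_FF _)

theorem mapFF_mem_nonunits_vfam_iff (C : Ctx R R' q M0 ζ ϖ)
    (C₁ : Ctx R₁ R₁' q M0 (Units.map (algebraMap L' L₁' : L' →* L₁') ζ) ϖ₁)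
    (hR : ∀ x : L, algebraMap L L₁ x ∈ R₁ ↔ x ∈ R)
    (hR' : ∀ x : L', algebraMap L' L₁' x ∈ R₁' ↔ x ∈ R') (x : FF L (q ^ 2 * M0)) (i : Fin 3) :
    mapFF (algebraMap L L₁) (q ^ 2 * M0) x ∈
        (vfam R₁ R₁' q M0 (Units.map (algebraMap L' L₁' : L' →* L₁') ζ) i).nonunits ↔
      x ∈ (vfam R R' q M0 ζ i).nonunits := by
  rw [Basic_mem_nonunits_iff, Basic_mem_nonunits_iff, ← map_inv₀,
    mapFF_mem_vfam_iff C C₁ hR hR', map_eq_zero]

end

end Fermat.Agent.GT.Val
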