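import Fermat.Agent.GT.Val.Inst.NormVal
import Fermat.Agent.GT.Val.Norm.Res

/-!
# GT-VAL, layer Inst, file NormData: the instance of `NormData` and the export (S4)

`T = TF`, `E = t0 - t2^(q²)` (`sep_zero`; unit at `∞`: reduction `τ - τ^(q⁴) ≠ 0`).
lifts: `lift1_0`, `lift1_1` = `MidData.res_inf` (with `b = bF`), `MidData.res_mid`; `lift2_2`, `lift2_1`: apply the
former to `w x` and use `w (up y) = V2 (w_q y)` (`wQ_sq_up`), `wQ_mem_Omid_iff`.
`const`: from `H.prod1`, `H.prod2` (all embeddings fix the constants).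
-/

set_option autoImplicit false
set_option synthInstance.maxHeartbeats 400000
set_option linter.unusedSectionVars false

namespace Fermat.Agent.GT.Val

open Fermat.Agent.GR Fermat.Agent.GR.E Fermat.Agent.GR.D.Vert Fermat.Agent.GT.EMB ModularCurve
open Fermat.Agent.GT.Glue

noncomputable section

variable {L L' : Type} [Field L] [Field L'] [Algebra L L']
  {R : ValuationSubring L} [IsDiscreteValuationRing R]
  {R' : ValuationSubring L'} [IsDiscreteValuationRing R']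
  {q M0 : ℕ} [NeZero q] [NeZero M0] [NeZero (q * M0)] [NeZero (q ^ 2 * M0)] {ζ : L'ˣ} {ϖ : R}

variable {N1 N2 : FF L (q ^ 2 * M0) →* FF L (q * M0)} {t : FF L M0}

theorem NormData_lift1 (C : Ctx R R' q M0 ζ ϖ) (x : FF L (q ^ 2 * M0))
    (hx : ∀ i, x ∈ vfam R R' q M0 ζ i) :
    (∃ y ∈ gaussO R (q * M0), x - up (dvd_sq q M0) y ∈ (Oinf R q M0).nonunits) ∧
    (∃ y ∈ gaussO R (q * M0), x - up (dvd_sq q M0) y ∈ (Omid (L := L) R' q M0 ζ).nonunits) := by
  letI := algFF L (dvd_sq q M0)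
  haveI := isScalarTower_algFF (R := R) (dvd_sq q M0)
  have D := midData C
  constructor
  · obtain ⟨f, hf1, -, hf⟩ := D.res_inf (bF_mem C) (bF_mem' C) (yF_sub_bF_mem C) hx
    exact ⟨f, hf1, hf⟩
  · obtain ⟨f, hf1, -, hf⟩ := D.res_mid hx
    exact ⟨f, hf1, hf⟩

theorem NormData_wQ_up (C : Ctx R R' q M0 ζ ϖ) (y : FF L (q * M0)) :
    wQ L (q ^ 2) M0 (up (dvd_sq q M0) y) = V2 L q M0 (wQ L q M0 y) :=
  Subtype.ext (by rw [wQ_sq_up C y, coe_V2])

theorem NormData_wQ_mem (C : Ctx R R' q M0 ζ ϖ) (x : FF L (q ^ 2 * M0))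
    (hx : ∀ i, x ∈ vfam R R' q M0 ζ i) : ∀ i, wQ L (q ^ 2) M0 x ∈ vfam R R' q M0 ζ i := by
  intro i
  fin_cases i
  · show wQ L (q ^ 2) M0 x ∈ Oinf R q M0
    exact mem_Oinf.2 (mem_Ozero.1 (hx 2))
  · show wQ L (q ^ 2) M0 x ∈ Omid (L := L) R' q M0 ζ
    exact (wQ_mem_Omid_iff C x).2 (hx 1)
  · show wQ L (q ^ 2) M0 x ∈ Ozero R q M0
    exact (wQ_mem_Ozero_iff C x).2 (hx 0)

theorem NormData_wQ_mem_Ozero' (C : Ctx R R' q M0 ζ ϖ) {y : FF L (q * M0)}
    (hy : y ∈ gaussO R (q * M0)) : wQ L q M0 y ∈ Ozero' R q M0 := by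
  obtain ⟨ι⟩ := C.exists_embC'
  rw [mem_Ozero', wQ_wQ ι q M0 C.coprime]
  exact hy

theorem NormData_wQ_mem_nonunits_Omid (C : Ctx R R' q M0 ζ ϖ) (z : FF L (q ^ 2 * M0)) :
    wQ L (q ^ 2) M0 z ∈ (Omid (L := L) R' q M0 ζ).nonunits ↔
      z ∈ (Omid (L := L) R' q M0 ζ).nonunits := by
  rw [Basic_mem_nonunits_iff, Basic_mem_nonunits_iff, ← map_inv₀, wQ_mem_Omid_iff C,
    map_eq_zero_iff _ (wQ L (q ^ 2) M0).injective]

theorem lift1_0 (C : Ctx R R' q M0 ζ ϖ) (x : FF L (q ^ 2 * M0))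
    (hx : ∀ i, x ∈ vfam R R' q M0 ζ i) :
    ∃ y ∈ gaussO R (q * M0), x - phi1 R q M0 y ∈ (Oinf R q M0).nonunits := by
  obtain ⟨y, hy, h⟩ := (NormData_lift1 C x hx).1
  exact ⟨y, hy, by rw [phi1_apply]; exact h⟩

theorem lift1_1 (C : Ctx R R' q M0 ζ ϖ) (x : FF L (q ^ 2 * M0))
    (hx : ∀ i, x ∈ vfam R R' q M0 ζ i) :
    ∃ y ∈ gaussO R (q * M0), x - phi1 R q M0 y ∈ (Omid (L := L) R' q M0 ζ).nonunits := by
  obtain ⟨y, hy, h⟩ := (NormData_lift1 C x hx).2
  exact ⟨y, hy, by rw [phi1_apply]; exact h⟩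

theorem lift2_2 (C : Ctx R R' q M0 ζ ϖ) (x : FF L (q ^ 2 * M0))
    (hx : ∀ i, x ∈ vfam R R' q M0 ζ i) :
    ∃ y ∈ Ozero' R q M0, x - phi2 R q M0 y ∈ (Ozero R q M0).nonunits := by
  obtain ⟨ι⟩ := C.exists_embC'
  obtain ⟨y, hy, hxy⟩ := (NormData_lift1 C _ (NormData_wQ_mem C x hx)).1
  refine ⟨wQ L q M0 y, NormData_wQ_mem_Ozero' C hy, ?_⟩
  rw [phi2_apply, ← NormData_wQ_up C y]
  have h1 : wQ L (q ^ 2) M0 (x - wQ L (q ^ 2) M0 (up (dvd_sq q M0) y)) =
      wQ L (q ^ 2) M0 x - up (dvd_sq q M0) y := by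
    rw [map_sub, wQ_wQ ι (q ^ 2) M0 C.coprime_sq]
  rw [mem_nonunits_Ozero, h1, ← mem_nonunits_Oinf]
  exact hxy

theorem lift2_1 (C : Ctx R R' q M0 ζ ϖ) (x : FF L (q ^ 2 * M0))
    (hx : ∀ i, x ∈ vfam R R' q M0 ζ i) :
    ∃ y ∈ Ozero' R q M0, x - phi2 R q M0 y ∈ (Omid (L := L) R' q M0 ζ).nonunits := by
  obtain ⟨ι⟩ := C.exists_embC'
  obtain ⟨y, hy, hxy⟩ := (NormData_lift1 C _ (NormData_wQ_mem C x hx)).2
  refine ⟨wQ L q M0 y, NormData_wQ_mem_Ozero' C hy, ?_⟩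
  rw [phi2_apply, ← NormData_wQ_up C y]
  have h1 : x - wQ L (q ^ 2) M0 (up (dvd_sq q M0) y) =
      wQ L (q ^ 2) M0 (wQ L (q ^ 2) M0 x - up (dvd_sq q M0) y) := by
    rw [map_sub, wQ_wQ ι (q ^ 2) M0 C.coprime_sq]
  rw [h1]
  exact (NormData_wQ_mem_nonunits_Omid C _).2 hxy

/-! ### helpers for `N1_algebraMap`, `N2_algebraMap`, `normData` -/

theorem NormData_coe_algebraMap (N : ℕ) (r : R) :
    ((algebraMap R (FF L N) r : FF L N) : LaurentSeries L) = HahnSeries.C (r : L) :=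
  coe_algebraMap_C R N r

theorem NormData_midHom_algebraMap (ξ : L'ˣ) (r : R) :
    midHom q M0 ξ (algebraMap R (FF L (q ^ 2 * M0)) r) =
      HahnSeries.C (algebraMap L L' (r : L)) := by
  rw [IsScalarTower.algebraMap_apply R L (FF L (q ^ 2 * M0))]
  change iotaMid L' q M0 ξ (mapFF (algebraMap L L') (q ^ 2 * M0)
    (algebraMap L (FF L (q ^ 2 * M0)) _)) = _
  rw [AtkinLehner_mapFF_algebraMap, AlgHom.commutes, Middle_algebraMap_eq_C]
  rfl

theorem N1_algebraMap (C : Ctx R R' q M0 ζ ϖ) (H : NormHyp q M0 ζ N1 N2) (r : R) :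
    N1 (algebraMap R (FF L (q ^ 2 * M0)) r) = algebraMap R (FF L (q * M0)) r ^ q := by
  apply Subtype.ext
  apply (coeffMap (algebraMap L L')).injective
  rw [H.prod1, IntermediateField.coe_pow, NormData_coe_algebraMap, NormData_coe_algebraMap,
    map_pow, Fermat.Agent.GR.D.Vert.coeffMap_C,
    Finset.prod_congr rfl (fun a _ => NormData_midHom_algebraMap (ζ ^ a) r), Finset.prod_const,
    Nat.card_Ico, ← pow_succ']
  congr 1
  have := C.prime.one_lt
  omega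

theorem N2_algebraMap (C : Ctx R R' q M0 ζ ϖ) (H : NormHyp q M0 ζ N1 N2) (r : R) :
    N2 (algebraMap R (FF L (q ^ 2 * M0)) r) = algebraMap R (FF L (q * M0)) r ^ q := by
  apply Subtype.ext
  apply (coeffMap (algebraMap L L')).injective
  apply qExpand_injective (R := L') (N := q)
  rw [H.prod2, IntermediateField.coe_pow, NormData_coe_algebraMap, NormData_coe_algebraMap,
    map_pow, map_pow, Fermat.Agent.GR.D.Vert.coeffMap_C, qExpand_C,
    Finset.prod_congr rfl (fun j _ => scaleHom_C (ζ ^ j) _), Finset.prod_const, Finset.card_range]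

theorem NormData_fin3 {P : Fin 3 → Prop} (h0 : P 0) (h1 : P 1) (h2 : P 2) : ∀ i, P i := by
  intro i
  fin_cases i
  · exact h0
  · exact h1
  · exact h2

theorem NormData_algebraMap_mem (C : Ctx R R' q M0 ζ ϖ) (i : Fin 3) (r : R) :
    algebraMap R (FF L (q ^ 2 * M0)) r ∈ vfam R R' q M0 ζ i := by
  revert i
  refine NormData_fin3 ?_ ?_ ?_
  · show _ ∈ Oinf R q M0
    rw [mem_Oinf, NormData_coe_algebraMap]
    exact t_isGInt_C r.2
  · show _ ∈ Omid (L := L) R' q M0 ζ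
    rw [mem_Omid C, NormData_midHom_algebraMap]
    exact t_isGInt_C ((C.comap _).2 r.2)
  · show _ ∈ Ozero R q M0
    rw [mem_Ozero, Basic_map_unif, NormData_coe_algebraMap]
    exact t_isGInt_C r.2

theorem NormData_algebraMap_mem_gaussO (N : ℕ) (r : R) :
    algebraMap R (FF L N) r ∈ gaussO R N := by
  show IsGInt R _
  rw [NormData_coe_algebraMap]
  exact t_isGInt_C r.2

theorem NormData_algebraMap_mem_Ozero' (r : R) :
    algebraMap R (FF L (q * M0)) r ∈ Ozero' R q M0 := by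
  rw [mem_Ozero', Basic_map_unif, NormData_coe_algebraMap]
  exact t_isGInt_C r.2

theorem NormData_disc (C : Ctx R R' q M0 ζ ϖ) : ∀ i, Disc ϖ (vfam R R' q M0 ζ i) := by
  let _ := algFF L (dvd_sq q M0)
  have := isScalarTower_algFF (R := R) (dvd_sq q M0)
  exact (midData C).disc

theorem NormData_dv1 (C : Ctx R R' q M0 ζ ϖ) : IsDV (Omid (L := L) R' q M0 ζ) (TF L q M0) where
  mem := TF_mem_nonunits_Omid C
  ne_zero := TF_ne_zero C
  unif := fun x hx => div_TF_mem_Omid C hx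
  disc := by
    intro x hx
    obtain ⟨m, hm⟩ := NormData_disc C 1 x hx
    refine ⟨(q - 1) * m, fun h => hm ?_⟩
    have hT := TF_ne_zero C
    have hϖ : algebraMap R (FF L (q ^ 2 * M0)) ϖ ≠ 0 := (gaussRing R _ C.irr).ne_zero
    have e : x / algebraMap R (FF L (q ^ 2 * M0)) ϖ ^ m = x / TF L q M0 ^ ((q - 1) * m) *
        (TF L q M0 ^ (q - 1) / algebraMap R (FF L (q ^ 2 * M0)) ϖ) ^ m := by
      rw [pow_mul, div_pow]
      field_simp
    show _ ∈ Omid (L := L) R' q M0 ζ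
    rw [e]
    exact mul_mem h (pow_mem (TF_pow_div_unif_mem C) m)

theorem NormData_valuation_eq {F : Type*} [Field F] {V : ValuationSubring F} {x y : F}
    (hx : x ≠ 0) (hy : y ≠ 0) (h1 : x / y ∈ V) (h2 : y / x ∈ V) :
    V.valuation x = V.valuation y := by
  have hvx : 0 < V.valuation x := zero_lt_iff.2 ((Valuation.ne_zero_iff _).2 hx)
  have hvy : 0 < V.valuation y := zero_lt_iff.2 ((Valuation.ne_zero_iff _).2 hy)
  rw [← V.valuation_le_one_iff, map_div₀, div_le_one₀ hvy] at h1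
  rw [← V.valuation_le_one_iff, map_div₀, div_le_one₀ hvx] at h2
  exact le_antisymm h1 h2

theorem NormData_mul_mem_nonunits {F : Type*} [Field F] {V : ValuationSubring F} {a b : F}
    (ha : a ∈ V.nonunits) (hb : b ∈ V) : a * b ∈ V.nonunits := by
  rw [ValuationSubring.mem_nonunits_iff] at ha ⊢
  rw [← V.valuation_le_one_iff] at hb
  rw [map_mul]
  exact mul_lt_one_of_lt_of_le ha hb

theorem NormData_wQ_TF (C : Ctx R R' q M0 ζ ϖ) :
    wQ L (q ^ 2) M0 (TF L q M0) = - TF L q M0 := by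
  obtain ⟨ι⟩ := C.exists_embC'
  apply Subtype.ext
  have h1 : up (dvd_sq q M0) (aF L q M0) = gen L (q ^ 2 * M0) 1 (one_dvd _) :=
    Subtype.ext (by rw [coe_up, aF, coe_gen, coe_gen])
  rw [IntermediateField.coe_neg, coe_TF, TF, map_sub, sub_eq_add_neg, IntermediateField.coe_add,
    IntermediateField.coe_neg, wQ_yF C, h1, wQ_gen ι (q ^ 2) M0 C.coprime_sq, T_alIdx_one]
  ring

theorem NormData_T_unit2 (C : Ctx R R' q M0 ζ ϖ) : (Ozero R q M0).valuation (TF L q M0) = 1 := by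
  refine valuation_eq_one_iff'.2 ⟨?_, ?_, TF_ne_zero C⟩
  · show wQ L (q ^ 2) M0 (TF L q M0) ∈ Oinf R q M0
    rw [NormData_wQ_TF C]
    exact neg_mem (TF_mem_Oinf C)
  · show wQ L (q ^ 2) M0 (TF L q M0)⁻¹ ∈ Oinf R q M0
    rw [map_inv₀, NormData_wQ_TF C, inv_neg]
    exact neg_mem (TF_inv_mem_Oinf C)

theorem NormData_chart_le (C : Ctx R R' q M0 ζ ϖ) (ht : TPar R q M0 ϖ t) (i : Fin 3)
    {x : FF L (q ^ 2 * M0)} (hx : x ∈ chart R ({t0F q t} : Set (FF L (q ^ 2 * M0)))) :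
    x ∈ vfam R R' q M0 ζ i :=
  chart_le_valuationSubring _ (NormData_algebraMap_mem C i)
    (by
      intro s hs
      rw [Set.mem_singleton_iff.1 hs]
      exact t0F_mem C ht.param i) hx

theorem NormData_E_not_mem_Oinf (C : Ctx R R' q M0 ζ ϖ) (ht : TPar R q M0 ϖ t) :
    t0F q t - t2F q t ^ q ^ 2 ∉ (Oinf R q M0).nonunits := by
  have h0 : t0F q t ∈ Oinf R q M0 := t0F_mem C ht.param 0
  have h2 : t2F q t ∈ Oinf R q M0 := NormData_chart_le C ht 0 (t2F_mem_chart ht)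
  intro h
  have e1 := (sub_mem_nonunits_gaussO h0 (pow_mem h2 _)).1 h
  have e2 := (sub_mem_nonunits_gaussO h2 (pow_mem h0 _)).1 (sep_inf C ht).1
  rw [IntermediateField.coe_pow, gredFun_pow (mem_Oinf.1 h2), e2, IntermediateField.coe_pow,
    gredFun_pow (mem_Oinf.1 h0), coe_up, ← pow_mul] at e1
  apply ht.pow_ne C.prime.one_lt (a := 0) (b := 4) (by norm_num)
  rw [pow_zero, pow_one]
  convert e1 using 2
  ring

theorem normData (C : Ctx R R' q M0 ζ ϖ) (H : NormHyp q M0 ζ N1 N2) (ht : TPar R q M0 ϖ t) :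
    NormData ϖ q (vfam R R' q M0 ζ) (gaussO R (q * M0)) (Ozero' R q M0) (phi1 R q M0)
      (phi2 R q M0) N1 N2 (TF L q M0) (t0F q t - t2F q t ^ q ^ 2) := by
  have hm0 : ∀ i, t0F q t ∈ vfam R R' q M0 ζ i := t0F_mem C ht.param
  have hm1 : ∀ i, t1F q t ∈ vfam R R' q M0 ζ i := fun i => NormData_chart_le C ht i (t1F_mem_chart ht)
  have hm2 : ∀ i, t2F q t ∈ vfam R R' q M0 ζ i := fun i => NormData_chart_le C ht i (t2F_mem_chart ht)
  have hE : ∀ i, t0F q t - t2F q t ^ q ^ 2 ∈ vfam R R' q M0 ζ i :=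
    fun i => sub_mem (hm0 i) (pow_mem (hm2 i) _)
  have hE' : ∀ i, t2F q t - t0F q t ^ q ^ 2 ∈ vfam R R' q M0 ζ i :=
    fun i => sub_mem (hm2 i) (pow_mem (hm0 i) _)
  have hϖ : algebraMap R (FF L (q ^ 2 * M0)) ϖ ≠ 0 := (gaussRing R _ C.irr).ne_zero
  refine
    { two_le := C.prime.two_le
      dv0 := isDV_of_gaussRing (gaussRing R _ C.irr) (NormData_disc C 0)
      dv1 := NormData_dv1 C
      dv2 := isDV_of_gaussRing (gaussRing_Ozero C.irr) (NormData_disc C 2)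
      dvi' := isDV_of_gaussRing (gaussRing R _ C.irr) (disc_gaussO C.irr _)
      dvz' := isDV_of_gaussRing (gaussRing_Ozero' C.irr) (disc_Ozero' C.irr)
      memR := NormData_algebraMap_mem C
      memRi' := NormData_algebraMap_mem_gaussO _
      memRz' := NormData_algebraMap_mem_Ozero'
      T_unit0 := valuation_eq_one_iff'.2 ⟨TF_mem_Oinf C, TF_inv_mem_Oinf C, TF_ne_zero C⟩
      T_unit2 := NormData_T_unit2 C
      T_ram := ?_
      E_unit0 := valuation_eq_one_iff.2 ⟨hE 0, NormData_E_not_mem_Oinf C ht⟩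
      E_unit1 := valuation_eq_one_iff.2 ⟨hE 1, (sep_zero C ht).2⟩
      E_mem2 := (sep_zero C ht).1
      comap1_0 := up_mem_Oinf
      comap1_1 := up_mem_Omid C
      comap1_2 := up_mem_Ozero C
      comap2_0 := phi2_mem_Oinf
      comap2_1 := phi2_mem_Omid C
      comap2_2 := phi2_mem_Ozero C
      nv1 := normVal1 C H
      nv2 := normVal2 C H
      const1 := N1_algebraMap C H
      const2 := N2_algebraMap C H
      lift1_0 := lift1_0 C
      lift1_1 := lift1_1 C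
      lift2_2 := lift2_2 C
      lift2_1 := lift2_1 C
      sep := ?_ }
  · rw [← map_pow]
    exact NormData_valuation_eq (pow_ne_zero _ (TF_ne_zero C)) hϖ (TF_pow_div_unif_mem C)
      (unif_div_TF_pow_mem C)
  · refine NormData_fin3 ?_ ?_ ?_
    · refine ⟨t1F q t - t2F q t ^ q, fun j => sub_mem (hm1 j) (pow_mem (hm2 j) _),
        (sep_zero_mid C ht).2.2, ?_⟩
      refine NormData_fin3 (fun h => absurd rfl h) (fun _ => (sep_zero_mid C ht).2.1)
        (fun _ => (sep_zero_mid C ht).1)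
    · refine ⟨(t2F q t - t0F q t ^ q ^ 2) * (t0F q t - t2F q t ^ q ^ 2),
        fun j => mul_mem (hE' j) (hE j), ?_, ?_⟩
      · have h1 : (vfam R R' q M0 ζ 1).valuation (t2F q t - t0F q t ^ q ^ 2) = 1 :=
          valuation_eq_one_iff.2 ⟨hE' 1, (sep_inf C ht).2⟩
        have h2 : (vfam R R' q M0 ζ 1).valuation (t0F q t - t2F q t ^ q ^ 2) = 1 :=
          valuation_eq_one_iff.2 ⟨hE 1, (sep_zero C ht).2⟩
        exact (valuation_eq_one_iff.1 (by rw [map_mul, h1, h2, one_mul])).2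
      · refine NormData_fin3 (fun _ => NormData_mul_mem_nonunits (sep_inf C ht).1 (hE 0))
          (fun h => absurd rfl h) (fun _ => ?_)
        rw [mul_comm (t2F q t - t0F q t ^ q ^ 2)]
        exact NormData_mul_mem_nonunits (sep_zero C ht).1 (hE' 2)
    · refine ⟨t1F q t - t0F q t ^ q, fun j => sub_mem (hm1 j) (pow_mem (hm0 j) _),
        (sep_inf_mid C ht).2.2, ?_⟩
      refine NormData_fin3 (fun _ => (sep_inf_mid C ht).1) (fun _ => (sep_inf_mid C ht).2.1)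
        (fun h => absurd rfl h)

/-- EXPORT (S4): vertical multiplicities + residues. -/
theorem exists_normalized (C : Ctx R R' q M0 ζ ϖ) (H : NormHyp q M0 ζ N1 N2)
    (ht : TPar R q M0 ϖ t) {n : ℕ} (hn : 0 < n) (hnq : n.Coprime q) {u : FF L (q ^ 2 * M0)}
    (hu : u ≠ 0) (h1 : ConstPow R n (N1 u)) (h2 : ConstPow R n (N2 u)) :
    ∃ (m : ℤ) (b : Fin 3 → Rˣ) (z : FF L (q ^ 2 * M0)), z ≠ 0 ∧
      ∀ i, algebraMap R (FF L (q ^ 2 * M0)) ϖ ^ m * u ^ ((q + 1) * (q - 1)) * z ^ n -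
        algebraMap R (FF L (q ^ 2 * M0)) (b i) ∈ (vfam R R' q M0 ζ i).nonunits :=
  (normData C H ht).main C.irr hn hnq hu h1 h2

end

end Fermat.Agent.GT.Val
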