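import Fermat.Agent.GT.Val.Inst.T
import Fermat.Agent.GR.C.LinDisj

/-!
# GT-VAL, layer Inst, file Span: `FF L (q² M0) = ⊕_{k<q} FF L (q M0) y^k`, `y = j(t^{q²})`

Over `ℚ̄`: `[FF Qb (q² M0) : FF Qb (q M0)] = q` (`EMB.relfinrank_FF_sq`) is prime and
`y ∉ FF Qb (q M0)` (`iotaMid` is the identity on level `q M0` and moves `y`: `iotaMid_gen_sq`,
`Middle_coeff_scaleHom_jd_one`), so `1, ..., y^(q-1)` is a basis.
Descent to `L` (`e : L →+* Qb`): GR/C/LinDisj.lean: clear denominators, expand the constants in an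
`L`-basis, `linDisj`.
-/

set_option autoImplicit false
set_option synthInstance.maxHeartbeats 400000
set_option linter.unusedSectionVars false

namespace Fermat.Agent.GT.Val

open Fermat.Agent.GR Fermat.Agent.GR.E Fermat.Agent.GR.D.Vert Fermat.Agent.GT.EMB ModularCurve

noncomputable section

section descent

open Fermat.Agent.GR.C

variable {K Ω : Type*} [Field K] [Field Ω] [Algebra K Ω]
  {F₁ : IntermediateField K (LaurentSeries K)}

theorem Span_isComb_prod {ι : Type*} (s : Finset ι) (b : ι → LaurentSeries Ω)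
    (hb : ∀ i ∈ s, IsComb F₁ (b i)) : IsComb F₁ (∏ i ∈ s, b i) := by
  classical
  induction s using Finset.induction_on with
  | empty => simpa using isComb_one (F₁ := F₁) (Ω := Ω)
  | insert a s ha ih =>
    rw [Finset.prod_insert ha]
    exact (hb a (Finset.mem_insert_self _ _)).mul
      (ih fun i hi => hb i (Finset.mem_insert_of_mem hi))

/-- common denominators. -/
theorem Span_exists_common_frac {n : ℕ} (x : Fin n → LaurentSeries Ω)
    (hx : ∀ k, x k ∈ IntermediateField.adjoin Ω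
      (⇑(coeffMap (algebraMap K Ω)) '' (F₁ : Set (LaurentSeries K)))) :
    ∃ b : LaurentSeries Ω, IsComb F₁ b ∧ b ≠ 0 ∧ ∀ k, IsComb F₁ (x k * b) := by
  classical
  choose a b ha hb hb0 hab using fun k => exists_frac (hx k)
  refine ⟨∏ k, b k, Span_isComb_prod _ _ fun i _ => hb i,
    Finset.prod_ne_zero_iff.2 fun i _ => hb0 i, fun k => ?_⟩
  rw [← Finset.mul_prod_erase Finset.univ b (Finset.mem_univ k), ← mul_assoc, hab]
  exact (ha k).mul (Span_isComb_prod _ _ fun i _ => hb i)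

/-- descent of a linear relation with coefficients in the compositum `Ω F₁` to `F₁`. -/
theorem Span_descent {n : ℕ} (v : Fin n → LaurentSeries K) (z : LaurentSeries K)
    (x : Fin n → LaurentSeries Ω)
    (hx : ∀ k, x k ∈ IntermediateField.adjoin Ω
      (⇑(coeffMap (algebraMap K Ω)) '' (F₁ : Set (LaurentSeries K))))
    (h : coeffMap (algebraMap K Ω) z = ∑ k, x k * coeffMap (algebraMap K Ω) (v k)) :
    ∃ c : Fin n → LaurentSeries K, (∀ k, c k ∈ F₁) ∧ z = ∑ k, c k * v k := by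
  classical
  obtain ⟨b, ⟨m, cb, g, hg, hbeq⟩, hb0, hxb⟩ := Span_exists_common_frac x hx
  choose N cx f hf hxeq using hxb
  -- the index type of all constants
  let cAll : (Fin m ⊕ (Σ k : Fin n, Fin (N k))) → Ω := Sum.elim cb (fun p => cx p.1 p.2)
  let FAll : (Fin m ⊕ (Σ k : Fin n, Fin (N k))) → LaurentSeries K :=
    Sum.elim (fun i => z * g i) (fun p => - (f p.1 p.2 * v p.1))
  obtain ⟨r, e, A, he, hA⟩ := exists_basis_repr K cAll
  have h0 : ∑ i, HahnSeries.C (cAll i) * coeffMap (algebraMap K Ω) (FAll i) = 0 := by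
    rw [Fintype.sum_sum_type, Fintype.sum_sigma]
    simp only [cAll, FAll, Sum.elim_inl, Sum.elim_inr, map_mul, map_neg, mul_neg,
      Finset.sum_neg_distrib]
    have e1 : ∑ i, HahnSeries.C (cb i) *
        (coeffMap (algebraMap K Ω) z * coeffMap (algebraMap K Ω) (g i)) =
        coeffMap (algebraMap K Ω) z * b := by
      rw [hbeq, Finset.mul_sum]
      refine Finset.sum_congr rfl fun i _ => ?_
      ring
    have e2 : ∀ k, ∑ i, HahnSeries.C (cx k i) *
        (coeffMap (algebraMap K Ω) (f k i) * coeffMap (algebraMap K Ω) (v k)) =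
        x k * b * coeffMap (algebraMap K Ω) (v k) := by
      intro k
      rw [hxeq k, Finset.sum_mul]
      refine Finset.sum_congr rfl fun i _ => ?_
      ring
    rw [e1, h, Finset.sum_mul]
    simp only [e2]
    rw [add_neg_eq_zero]
    refine Finset.sum_congr rfl fun k _ => ?_
    ring
  have h1 := comb_change_basis cAll FAll e A hA
  rw [h0] at h1
  have h2 := linDisj e he _ h1.symm
  have h3 := comb_change_basis cb g e (fun i => A (Sum.inl i)) (fun i => hA (Sum.inl i))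
  have h4 : ∃ j, ∑ i, HahnSeries.C (A (Sum.inl i) j) * g i ≠ 0 := by
    by_contra hcon
    simp only [not_exists, not_not] at hcon
    apply hb0
    rw [hbeq, h3]
    exact Finset.sum_eq_zero fun j _ => by rw [hcon j, map_zero, mul_zero]
  obtain ⟨j, hj⟩ := h4
  set B : LaurentSeries K := ∑ i, HahnSeries.C (A (Sum.inl i) j) * g i with hB
  have hBmem : B ∈ F₁ := sum_mem fun i _ => mul_mem (C_mem_intermediateField _) (hg i)
  have h5 : ∑ i, HahnSeries.C (A i j) * FAll i = 0 := congrFun h2 j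
  rw [Fintype.sum_sum_type, Fintype.sum_sigma] at h5
  simp only [FAll, Sum.elim_inl, Sum.elim_inr, mul_neg, Finset.sum_neg_distrib] at h5
  rw [add_neg_eq_zero] at h5
  refine ⟨fun k => (∑ i, HahnSeries.C (A (Sum.inr ⟨k, i⟩) j) * f k i) * B⁻¹, fun k =>
    mul_mem (sum_mem fun i _ => mul_mem (C_mem_intermediateField _) (hf k i)) (inv_mem hBmem), ?_⟩
  have h6 : z * B = ∑ k, (∑ i, HahnSeries.C (A (Sum.inr ⟨k, i⟩) j) * f k i) * v k := by
    rw [hB, Finset.mul_sum]
    refine Eq.trans (Finset.sum_congr rfl fun i _ => by ring) (h5.trans ?_)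
    refine Finset.sum_congr rfl fun k _ => ?_
    rw [Finset.sum_mul]
    refine Finset.sum_congr rfl fun i _ => ?_
    ring
  rw [eq_comm, ← mul_left_inj' hj, h6, Finset.sum_mul]
  refine Finset.sum_congr rfl fun k _ => ?_
  field_simp

end descent

variable {L L' : Type} [Field L] [Field L'] [Algebra L L']
  {R : ValuationSubring L} [IsDiscreteValuationRing R]
  {R' : ValuationSubring L'} [IsDiscreteValuationRing R']
  {q M0 : ℕ} [NeZero q] [NeZero M0] [NeZero (q * M0)] [NeZero (q ^ 2 * M0)] {ζ : L'ˣ} {ϖ : R}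

theorem Span_yF_not_mem (hq : q.Prime) (hqM : ¬ q ∣ M0) :
    (yF Qb q M0 : LaurentSeries Qb) ∉ FF Qb (q * M0) := by
  intro hmem
  obtain ⟨ι⟩ : Nonempty (Qb →+* ℂ) := S24.nonempty_iotaC
  obtain ⟨ζ, hζ⟩ : ∃ ζ : Qbˣ, IsPrimitiveRoot ζ q := by
    obtain ⟨ζ, hζ⟩ := HasEnoughRootsOfUnity.exists_primitiveRoot Qb q
    exact ⟨hζ.isUnit (NeZero.ne q) |>.unit, IsPrimitiveRoot.coe_units_iff.1 hζ⟩
  have h0 := iotaMid_of_mem ι hq hqM ζ hζ (yF Qb q M0) hmem
  have h1 := iotaMid_gen_sq ι hq hqM ζ hζ 1 (one_dvd _)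
  have e : gen Qb (q ^ 2 * M0) (q ^ 2 * 1) (Nat.mul_dvd_mul_left _ (one_dvd _)) = yF Qb q M0 :=
    Subtype.ext (by simp [yF])
  rw [e, h0] at h1
  have h2 := congrArg (fun f : LaurentSeries Qb => f.coeff (-1)) h1
  simp only [yF, coe_gen] at h2
  rw [Middle_coeff_scaleHom_jd_one] at h2
  have : NeZero (q ^ 2) := ⟨by have := hq.pos; positivity⟩
  rw [jd_eq, qExpand_coeff_of_not_dvd] at h2
  · exact (ζ⁻¹).ne_zero h2.symm
  · intro hdvd
    have h3 : ((q ^ 2 : ℕ) : ℤ) ∣ 1 := (Int.dvd_neg).mp hdvd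
    have h4 : q ^ 2 ∣ 1 := by exact_mod_cast h3
    have h5 : q ∣ 1 := (Dvd.intro_left q (by ring : q * q = q ^ 2)).trans h4
    exact hq.one_lt.ne' (Nat.dvd_one.mp h5)

theorem span_Qb (hq : q.Prime) (hqM : ¬ q ∣ M0) (z : FF Qb (q ^ 2 * M0)) :
    ∃ c : ℕ → FF Qb (q * M0),
      z = ∑ k ∈ Finset.range q, up (dvd_sq q M0) (c k) * yF Qb q M0 ^ k := by
  classical
  have hM0 : M0 ≠ 0 := NeZero.ne M0
  letI : Algebra (FF Qb (q * M0)) (FF Qb (q ^ 2 * M0)) := algFF Qb (dvd_sq q M0)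
  have hrank : Module.finrank (FF Qb (q * M0)) (FF Qb (q ^ 2 * M0)) = q := by
    exact (Norm2_finrank_inclusion (FF_mono Qb (dvd_sq q M0))).trans (relfinrank_FF_sq hq hM0 hqM)
  have hfin : FiniteDimensional (FF Qb (q * M0)) (FF Qb (q ^ 2 * M0)) :=
    Module.finite_of_finrank_pos (by rw [hrank]; exact hq.pos)
  have hsimple : IsSimpleOrder (IntermediateField (FF Qb (q * M0)) (FF Qb (q ^ 2 * M0))) :=
    IntermediateField.isSimpleOrder_of_finrank_prime _ _ (by rw [hrank]; exact hq)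
  have hy : yF Qb q M0 ∉ (⊥ : IntermediateField (FF Qb (q * M0)) (FF Qb (q ^ 2 * M0))) := by
    intro hmem
    obtain ⟨c, hc⟩ := IntermediateField.mem_bot.1 hmem
    exact Span_yF_not_mem hq hqM (by rw [← hc]; exact (c : FF Qb (q * M0)).2)
  have htop : IntermediateField.adjoin (FF Qb (q * M0)) {yF Qb q M0} = ⊤ := by
    rcases hsimple.eq_bot_or_eq_top (IntermediateField.adjoin (FF Qb (q * M0)) {yF Qb q M0}) with
      h | h
    · exact absurd (h ▸ IntermediateField.mem_adjoin_simple_self _ _) hy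
    · exact h
  have hint : IsIntegral (FF Qb (q * M0)) (yF Qb q M0) := IsIntegral.of_finite _ _
  have hz : z ∈ Algebra.adjoin (FF Qb (q * M0)) {yF Qb q M0} := by
    rw [← IntermediateField.adjoin_simple_toSubalgebra_of_isAlgebraic hint.isAlgebraic, htop]
    exact Algebra.mem_top
  rw [Algebra.adjoin_singleton_eq_range_aeval] at hz
  obtain ⟨P, hP⟩ := hz
  have hmon := minpoly.monic hint
  have hdeg : (P %ₘ minpoly (FF Qb (q * M0)) (yF Qb q M0)).natDegree < q := by
    have h1 : (minpoly (FF Qb (q * M0)) (yF Qb q M0)).natDegree ≤ q := by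
      exact (minpoly.natDegree_le _).trans hrank.le
    have h2 : (minpoly (FF Qb (q * M0)) (yF Qb q M0)) ≠ 1 := minpoly.ne_one _ _
    exact lt_of_lt_of_le (Polynomial.natDegree_modByMonic_lt P hmon h2) h1
  refine ⟨fun k => (P %ₘ minpoly (FF Qb (q * M0)) (yF Qb q M0)).coeff k, ?_⟩
  have h3 : Polynomial.aeval (yF Qb q M0) (P %ₘ minpoly (FF Qb (q * M0)) (yF Qb q M0)) = z := by
    rw [← hP]
    exact Polynomial.aeval_modByMonic_eq_self_of_root (minpoly.aeval _ _)
  rw [← h3, Polynomial.aeval_eq_sum_range' hdeg]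
  refine Finset.sum_congr rfl fun k _ => ?_
  rw [Algebra.smul_def]
  rfl

theorem span_L (C : Ctx R R' q M0 ζ ϖ) (z : FF L (q ^ 2 * M0)) :
    ∃ c : ℕ → FF L (q * M0),
      z = ∑ k ∈ Finset.range q, up (dvd_sq q M0) (c k) * yF L q M0 ^ k := by
  obtain ⟨e'⟩ := C.emb
  letI : Algebra L Qb := (e'.comp (algebraMap L L')).toAlgebra
  obtain ⟨c, hc⟩ := span_Qb C.prime C.ndvd (mapFF (algebraMap L Qb) (q ^ 2 * M0) z)
  have hc' := congrArg (fun u : FF Qb (q ^ 2 * M0) => (u : LaurentSeries Qb)) hc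
  simp only [coe_mapFF] at hc'
  have h1 : coeffMap (algebraMap L Qb) (z : LaurentSeries L) =
      ∑ k : Fin q, (c k : LaurentSeries Qb) * coeffMap (algebraMap L Qb) (jd L (q ^ 2) ^ (k : ℕ)) := by
    rw [hc', Finset.sum_range]
    push_cast
    refine Finset.sum_congr rfl fun k _ => ?_
    rw [coe_up, map_pow, coeffMap_jd]
    rfl
  obtain ⟨d, hd, hz⟩ := Span_descent (F₁ := FF L (q * M0)) (fun k : Fin q => jd L (q ^ 2) ^ (k : ℕ))
    (z : LaurentSeries L) (fun k => (c k : LaurentSeries Qb))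
    (fun k => by rw [← Fermat.Agent.GR.C.FF_eq_adjoin_image (K := L) (Ω := Qb) (q * M0)]; exact (c k).2) h1
  refine ⟨fun k => if hk : k < q then ⟨d ⟨k, hk⟩, hd _⟩ else 0, Subtype.ext ?_⟩
  rw [hz, Finset.sum_range]
  push_cast
  refine Finset.sum_congr rfl fun k _ => ?_
  rw [coe_up, dif_pos k.2]
  rfl

end

end Fermat.Agent.GT.Val
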