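import Fermat.Agent.GT.Val.Inst.Insep
import Fermat.Agent.GT.Val.Inst.Span
import Fermat.Agent.GT.Val.Ind.Compose

/-!
# GT-VAL, layer Inst, file Mid: `MidData` for `FF L (q M0) ⊆ FF L (q² M0)`, and its consequences

Pure assembly of Inst/{Basic,T,Insep,Span}.lean.  `algebraMap F' F f = up (dvd_sq q M0) f` (both are
`IntermediateField.inclusion _ f`).  Conversion `Polynomial.aeval y P = ∑_{k<q} up (P.coeff k) * y^k`
(`Polynomial.aeval_eq_sum_range'`).
-/

set_option autoImplicit false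

set_option synthInstance.maxHeartbeats 400000

set_option linter.unusedSectionVars false

namespace Fermat.Agent.GT.Val

open Fermat.Agent.GR Fermat.Agent.GR.E Fermat.Agent.GR.D.Vert Fermat.Agent.GT.EMB ModularCurve

noncomputable section

variable {L L' : Type} [Field L] [Field L'] [Algebra L L']
  {R : ValuationSubring L} [IsDiscreteValuationRing R]
  {R' : ValuationSubring L'} [IsDiscreteValuationRing R']
  {q M0 : ℕ} [NeZero q] [NeZero M0] [NeZero (q * M0)] [NeZero (q ^ 2 * M0)] {ζ : L'ˣ} {ϖ : R}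

theorem algebraMap_algFF {K : Type*} [Field K] {N N' : ℕ} (h : N ∣ N') (f : FF K N) :
    letI := algFF K h
    algebraMap (FF K N) (FF K N') f = up h f := rfl

theorem isScalarTower_algFF {N N' : ℕ} (h : N ∣ N') :
    letI := algFF L h
    IsScalarTower R (FF L N) (FF L N') := by
  letI := algFF L h
  refine IsScalarTower.of_algebraMap_eq fun r => Subtype.ext ?_
  rw [algebraMap_algFF h, coe_up]
  have h1 : ((algebraMap R (FF L N') r : FF L N') : LaurentSeries L) =
      algebraMap L (LaurentSeries L) (r : L) := rfl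
  have h2 : ((algebraMap R (FF L N) r : FF L N) : LaurentSeries L) =
      algebraMap L (LaurentSeries L) (r : L) := rfl
  rw [h1, h2]

theorem isScalarTower_algFF₃ {N N' N'' : ℕ} (h : N ∣ N') (h' : N' ∣ N'') :
    letI := algFF L h
    letI := algFF L h'
    letI := algFF L (h.trans h')
    IsScalarTower (FF L N) (FF L N') (FF L N'') := by
  letI := algFF L h
  letI := algFF L h'
  letI := algFF L (h.trans h')
  refine IsScalarTower.of_algebraMap_eq fun x => Subtype.ext ?_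
  rw [algebraMap_algFF (h.trans h'), algebraMap_algFF h', algebraMap_algFF h, coe_up, coe_up,
    coe_up]

theorem midData (C : Ctx R R' q M0 ζ ϖ) :
    letI := algFF L (dvd_sq q M0)
    MidData ϖ (gaussO R (q * M0)) (Ozero' R q M0) (vfam R R' q M0 ζ) q (yF L q M0)
      (aF L q M0) := by
  letI := algFF L (dvd_sq q M0)
  have hsum : ∀ P : Polynomial (FF L (q * M0)), P.natDegree < q →
      Polynomial.aeval (yF L q M0) P =
        ∑ k ∈ Finset.range q, up (dvd_sq q M0) (P.coeff k) * yF L q M0 ^ k := by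
    intro P hP
    rw [Polynomial.aeval_eq_sum_range' hP]
    refine Finset.sum_congr rfl fun k _ => ?_
    rw [Algebra.smul_def, algebraMap_algFF]
  exact
  { one_lt := C.prime.one_lt
    gauss₁ := gaussRing R (q * M0) C.irr
    gauss₂ := gaussRing_Ozero' C.irr
    disc₁ := disc_gaussO C.irr _
    disc₂ := disc_Ozero' C.irr
    comap0 := fun x => up_mem_Oinf x
    comap1 := fun x => up_mem_Omid C x
    comap2 := fun x => up_mem_Ozero C x
    gauss0 := gaussRing R (q ^ 2 * M0) C.irr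
    gauss2 := gaussRing_Ozero C.irr
    span := by
      intro z
      obtain ⟨c, hc⟩ := span_L C z
      have hq : 0 < q := C.prime.pos
      have hdeg : (∑ k ∈ Finset.range q,
          Polynomial.C (c k) * (Polynomial.X : Polynomial (FF L (q * M0))) ^ k).natDegree < q := by
        have : (∑ k ∈ Finset.range q,
            Polynomial.C (c k) * (Polynomial.X : Polynomial (FF L (q * M0))) ^ k).natDegree
              ≤ q - 1 :=
          Polynomial.natDegree_sum_le_of_forall_le _ _ fun k hk =>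
            (Polynomial.natDegree_C_mul_X_pow_le _ _).trans
              (by have := Finset.mem_range.1 hk; omega)
        omega
      refine ⟨_, hdeg, ?_⟩
      rw [map_sum, hc]
      refine Finset.sum_congr rfl fun k _ => ?_
      rw [map_mul, map_pow, Polynomial.aeval_C, Polynomial.aeval_X, algebraMap_algFF]
    a_mem₁ := aF_mem C
    a_mem₂ := aF_mem' C
    T_ne := TF_ne_zero C
    T_mem0 := TF_mem_Oinf C
    T_inv_mem0 := TF_inv_mem_Oinf C
    T_mid := TF_mem_nonunits_Omid C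
    T_ram := unif_div_TF_pow_mem C
    T_ram' := TF_pow_div_unif_mem C
    y_mem2 := yF_mem_Ozero C
    insep := by
      intro P hP hcoef hmem k
      rw [hsum P hP] at hmem
      by_cases hk : k < q
      · exact insep_sum C P.coeff hcoef hmem k hk
      · rw [Polynomial.coeff_eq_zero_of_natDegree_lt (by omega)]
        rw [ValuationSubring.mem_nonunits_iff, map_zero]
        exact zero_lt_one }

/-- `T` is a uniformizer of `Omid`. -/
theorem div_TF_mem_Omid (C : Ctx R R' q M0 ζ ϖ) {x : FF L (q ^ 2 * M0)}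
    (hx : x ∈ (Omid (L := L) R' q M0 ζ).nonunits) : x / TF L q M0 ∈ Omid (L := L) R' q M0 ζ := by
  let _ := algFF L (dvd_sq q M0)
  have := isScalarTower_algFF (R := R) (dvd_sq q M0)
  exact (midData C).unif_mid x hx

/-- one inclusion of `MidData.mid_unique`. -/
theorem Mid_mid_le {R : Type*} [CommRing R] [IsDomain R] [IsDiscreteValuationRing R]
    {F' F : Type*} [Field F'] [Field F] [Algebra R F'] [Algebra R F] [Algebra F' F]
    [IsScalarTower R F' F] {ϖ : R} {𝒪'₁ 𝒪'₂ : ValuationSubring F'}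
    {𝒪 𝒪t : Fin 3 → ValuationSubring F} {q : ℕ} {y : F} {a : F'}
    (D : MidData ϖ 𝒪'₁ 𝒪'₂ 𝒪 q y a) (Dt : MidData ϖ 𝒪'₁ 𝒪'₂ 𝒪t q y a) {z : F} (hz : z ∈ 𝒪 1) :
    z ∈ 𝒪t 1 := by
  have hϖ0 : algebraMap R F ϖ ≠ 0 := D.gauss0.ne_zero
  have hT0 := D.T_ne
  have hram := D.T_ram
  have hramt' := Dt.T_ram'
  have hTinv0 := D.T_inv_mem0
  obtain ⟨m, hm⟩ := (D.disc 0).exists_pow_mul_mem z
  generalize y - algebraMap F' F a = T at *
  generalize algebraMap R F ϖ = π at *
  -- `w = z E ^ m`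
  set w : F := z * (π / T ^ (q - 1)) ^ m with hw
  have hw0 : w ∈ 𝒪 0 := by
    have e : w = π ^ m * z * (T⁻¹) ^ ((q - 1) * m) := by
      rw [hw, div_pow, inv_pow, ← pow_mul]
      field_simp
    rw [e]
    exact mul_mem hm (pow_mem hTinv0 _)
  have hw1 : w ∈ 𝒪 1 := mul_mem hz (pow_mem hram m)
  obtain ⟨P, hP, hPw⟩ := D.span w
  have hc := D.ind₁ hP (by rw [hPw]; exact hw0) (by rw [hPw]; exact hw1)
  have hwt : w ∈ 𝒪t 1 := by
    rw [← hPw]
    exact Main_aeval_mem _ (Dt.y_mem 1) fun k => (Dt.comap1 _).2 (hc k)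
  have e : z = w * (T ^ (q - 1) / π) ^ m := by
    rw [hw, div_pow, div_pow]
    field_simp
  rw [e]
  exact mul_mem hwt (pow_mem hramt' m)

/-- ABSTRACT: the middle valuation subring is determined by the rest of `MidData`:
`𝒪 0 ∩ 𝒪 1 = {Q(T) : Q ∈ 𝒪'₁[X], deg Q < q}` (`ind₁`), and `z E^m ∈ 𝒪 0` for `m` large,
`E = ϖ / T^(q-1)` a unit of `𝒪 1` and of `𝒪~ 1`. -/
theorem MidData.mid_unique {R : Type*} [CommRing R] [IsDomain R] [IsDiscreteValuationRing R]
    {F' F : Type*} [Field F'] [Field F] [Algebra R F'] [Algebra R F] [Algebra F' F]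
    [IsScalarTower R F' F] {ϖ : R} {𝒪'₁ 𝒪'₂ : ValuationSubring F'}
    {𝒪 𝒪t : Fin 3 → ValuationSubring F} {q : ℕ} {y : F} {a : F'}
    (D : MidData ϖ 𝒪'₁ 𝒪'₂ 𝒪 q y a) (Dt : MidData ϖ 𝒪'₁ 𝒪'₂ 𝒪t q y a) (h0 : 𝒪 0 = 𝒪t 0) :
    𝒪 1 = 𝒪t 1 :=
  SetLike.ext fun _ => ⟨fun hz => Mid_mid_le D Dt hz, fun hz => Mid_mid_le Dt D hz⟩

/-- `Omid` does not depend on the choice of the primitive `q`-th root of unity. -/
theorem Omid_eq (C : Ctx R R' q M0 ζ ϖ) (ζ' : L'ˣ) (hζ' : IsPrimitiveRoot ζ' q) :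
    Omid (L := L) R' q M0 ζ' = Omid (L := L) R' q M0 ζ := by
  let _ := algFF L (dvd_sq q M0)
  have := isScalarTower_algFF (R := R) (dvd_sq q M0)
  have C' : Ctx R R' q M0 ζ' ϖ := { C with root := hζ' }
  have h := MidData.mid_unique (midData C') (midData C)
    ((vfam_zero q M0 ζ').trans (vfam_zero q M0 ζ).symm)
  rw [vfam_one, vfam_one] at h
  exact h

theorem Mid_mem_of_pow_eq_one {K : Type*} [Field K] (A : ValuationSubring K) {a : K} {n : ℕ}
    (hn : n ≠ 0) (ha : a ^ n = 1) : a ∈ A := by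
  rw [← A.valuation_le_one_iff]
  by_contra h
  rw [not_le] at h
  have h1 : 1 < A.valuation a ^ n := one_lt_pow₀ h hn
  rw [← map_pow, ha, map_one] at h1
  exact lt_irrefl _ h1

/-- `Omid` is stable under `w_{q²}` (`iotaMid_wQ`, `Omid_eq` for `ζ⁻¹`, `isGInt_scaleHom`). -/
theorem wQ_mem_Omid_iff (C : Ctx R R' q M0 ζ ϖ) (x : FF L (q ^ 2 * M0)) :
    wQ L (q ^ 2) M0 x ∈ Omid (L := L) R' q M0 ζ ↔ x ∈ Omid (L := L) R' q M0 ζ := by
  obtain ⟨ι⟩ := C.exists_embC
  have C' : Ctx R R' q M0 ζ⁻¹ ϖ := { C with root := C.root.inv }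
  have hmid : midHom q M0 ζ (wQ L (q ^ 2) M0 x) = scaleHom ζ (midHom q M0 ζ⁻¹ x) := by
    show iotaMid L' q M0 ζ (mapFF (algebraMap L L') (q ^ 2 * M0) (wQ L (q ^ 2) M0 x)) =
      scaleHom ζ (iotaMid L' q M0 ζ⁻¹ (mapFF (algebraMap L L') (q ^ 2 * M0) x))
    rw [mapFF_wQ ι (algebraMap L L') (q ^ 2) M0 C.coprime_sq x,
      iotaMid_wQ ι C.prime C.ndvd ζ C.root]
  have hζ : ((ζ : L'ˣ) : L') ∈ R' := Mid_mem_of_pow_eq_one R' C.prime.ne_zero (by
    rw [← Units.val_pow_eq_pow_val, C.root.pow_eq_one, Units.val_one])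
  have hζ' : ((ζ⁻¹ : L'ˣ) : L') ∈ R' := Mid_mem_of_pow_eq_one R' C.prime.ne_zero (by
    rw [← Units.val_pow_eq_pow_val, C'.root.pow_eq_one, Units.val_one])
  have hx : x ∈ Omid (L := L) R' q M0 ζ ↔ IsGInt R' (midHom q M0 ζ⁻¹ x) := by
    rw [← Omid_eq C ζ⁻¹ C'.root, mem_Omid C']
  rw [hx, mem_Omid C, hmid]
  constructor
  · intro h
    have h2 := isGInt_scaleHom ζ⁻¹ hζ' (by rwa [inv_inv]) h
    rwa [scaleHom_scaleHom, inv_mul_cancel, scaleHom_one] at h2
  · intro h
    exact isGInt_scaleHom ζ hζ hζ' h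

theorem wQ_mem_Ozero_iff (C : Ctx R R' q M0 ζ ϖ) (x : FF L (q ^ 2 * M0)) :
    wQ L (q ^ 2) M0 x ∈ Ozero R q M0 ↔ x ∈ Oinf R q M0 := by
  obtain ⟨ι⟩ := C.exists_embC'
  rw [mem_Ozero, mem_Oinf, wQ_wQ ι (q ^ 2) M0 C.coprime_sq x]

end

end Fermat.Agent.GT.Val
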