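import Fermat.Agent.GT.EMB.Norm2
import Fermat.Agent.GT.Val.Gauss.Along
import Fermat.Agent.GT.Val.Ind.Defs

/-!
# GT-VAL, layer Inst: the three vertical valuation subrings of `FF L (q² M0)` (definitions)

`L ⊆ L'` fields of characteristic `0` (number fields inside `ℚ̄`), `R = R' ∩ L` DVRs, `q` a uniformizer
of `R`, `ζ ∈ L'` a primitive `q`-th root of unity.

* `Oinf`  : the Gauss valuation subring `Vert.gaussO R (q² M0)` (expansion at `∞`);
* `Ozero` : `Oinf.comap w_{q²}` (expansion at `0`);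
* `Omid`  : the Gauss valuation subring along `midHom = EMB.iotaMid ζ ∘ (L → L')` (expansion at a middle
  cusp), with respect to `R'`.
* `vfam = ![Oinf, Omid, Ozero]`.
-/

set_option autoImplicit false
set_option synthInstance.maxHeartbeats 400000

namespace Fermat.Agent.GT.Val

open Fermat.Agent.GR Fermat.Agent.GR.E Fermat.Agent.GR.D.Vert Fermat.Agent.GT.EMB ModularCurve

noncomputable section

/-- the inclusion `FF K N ⊆ FF K N'` as an algebra structure (use with `letI`). -/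
@[reducible] def algFF (K : Type*) [Field K] {N N' : ℕ} (h : N ∣ N') :
    Algebra (FF K N) (FF K N') :=
  (IntermediateField.inclusion (FF_mono K h)).toRingHom.toAlgebra

/-- an element of level `N` seen at level `N'`. -/
def up {K : Type*} [Field K] {N N' : ℕ} (h : N ∣ N') (u : FF K N) : FF K N' :=
  IntermediateField.inclusion (FF_mono K h) u

@[simp] theorem coe_up {K : Type*} [Field K] {N N' : ℕ} (h : N ∣ N') (u : FF K N) :
    (up h u : LaurentSeries K) = u :=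
  IntermediateField.coe_inclusion (FF_mono K h) u

theorem dvd_sq (q M0 : ℕ) : q * M0 ∣ q ^ 2 * M0 := ⟨q, by ring⟩

theorem dvd_sq0 (q M0 : ℕ) : M0 ∣ q ^ 2 * M0 := ⟨q ^ 2, by ring⟩

theorem dvd_q0 (q M0 : ℕ) : M0 ∣ q * M0 := ⟨q, by ring⟩

variable {L L' : Type} [Field L] [Field L'] [Algebra L L']

/-- the expansion at a middle cusp, on `FF L (q² M0)`. -/
def midHom (q M0 : ℕ) [NeZero (q ^ 2 * M0)] (ζ : L'ˣ) : FF L (q ^ 2 * M0) →+* LaurentSeries L' :=
  (iotaMid L' q M0 ζ).toRingHom.comp (mapFF (algebraMap L L') (q ^ 2 * M0))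

variable (R : ValuationSubring L) [IsDiscreteValuationRing R]
  (R' : ValuationSubring L') [IsDiscreteValuationRing R']

def Oinf (q M0 : ℕ) : ValuationSubring (FF L (q ^ 2 * M0)) := gaussO R (q ^ 2 * M0)

def Omid (q M0 : ℕ) [NeZero (q ^ 2 * M0)] (ζ : L'ˣ) : ValuationSubring (FF L (q ^ 2 * M0)) :=
  gaussAlong R' (midHom (L := L) q M0 ζ)

def Ozero (q M0 : ℕ) [NeZero (q ^ 2 * M0)] : ValuationSubring (FF L (q ^ 2 * M0)) :=
  (gaussO R (q ^ 2 * M0)).comap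
    ((wQ L (q ^ 2) M0 : FF L (q ^ 2 * M0) ≃ₐ[L] FF L (q ^ 2 * M0)) :
      FF L (q ^ 2 * M0) →+* FF L (q ^ 2 * M0))

/-- the three vertical valuation subrings of `FF L (q² M0)`. -/
def vfam (q M0 : ℕ) [NeZero (q ^ 2 * M0)] (ζ : L'ˣ) : Fin 3 → ValuationSubring (FF L (q ^ 2 * M0)) :=
  ![Oinf R q M0, Omid (L := L) R' q M0 ζ, Ozero R q M0]

/-- the second vertical valuation subring of `FF L (q M0)`. -/
def Ozero' (q M0 : ℕ) [NeZero (q * M0)] : ValuationSubring (FF L (q * M0)) :=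
  (gaussO R (q * M0)).comap
    ((wQ L q M0 : FF L (q * M0) ≃ₐ[L] FF L (q * M0)) : FF L (q * M0) →+* FF L (q * M0))

/-- The standing hypotheses. -/
structure Ctx (q M0 : ℕ) (ζ : L'ˣ) (ϖ : R) : Prop where
  prime : q.Prime
  ndvd : ¬ q ∣ M0
  emb : Nonempty (L' →+* Qb)
  comap : ∀ x : L, algebraMap L L' x ∈ R' ↔ x ∈ R
  irr : Irreducible ϖ
  unif : (ϖ : L) = (q : L)
  root : IsPrimitiveRoot ζ q

variable {R R'}

theorem mem_Oinf {q M0 : ℕ} {u : FF L (q ^ 2 * M0)} :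
    u ∈ Oinf R q M0 ↔ IsGInt R (u : LaurentSeries L) := Iff.rfl

theorem mem_Ozero {q M0 : ℕ} [NeZero (q ^ 2 * M0)] {u : FF L (q ^ 2 * M0)} :
    u ∈ Ozero R q M0 ↔ IsGInt R (wQ L (q ^ 2) M0 u : LaurentSeries L) := Iff.rfl

theorem mem_Ozero' {q M0 : ℕ} [NeZero (q * M0)] {u : FF L (q * M0)} :
    u ∈ Ozero' R q M0 ↔ IsGInt R (wQ L q M0 u : LaurentSeries L) := Iff.rfl

@[simp] theorem vfam_zero (q M0 : ℕ) [NeZero (q ^ 2 * M0)] (ζ : L'ˣ) :
    vfam R R' q M0 ζ 0 = Oinf R q M0 := rfl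

@[simp] theorem vfam_one (q M0 : ℕ) [NeZero (q ^ 2 * M0)] (ζ : L'ˣ) :
    vfam R R' q M0 ζ 1 = Omid (L := L) R' q M0 ζ := rfl

@[simp] theorem vfam_two (q M0 : ℕ) [NeZero (q ^ 2 * M0)] (ζ : L'ˣ) :
    vfam R R' q M0 ζ 2 = Ozero R q M0 := rfl

end

end Fermat.Agent.GT.Val
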