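import Fermat.Agent.GT.Val.Inst.Tower
import Fermat.Agent.GS.Tower.Defs

/-!
# GT-VAL, layer Inst, file Base: `BaseHyp` from `GS.TowerData` (helper63's `GS.Inst.towerData`)
-/

set_option autoImplicit false
set_option synthInstance.maxHeartbeats 400000
set_option linter.unusedSectionVars false

namespace Fermat.Agent.GT.Val

open Fermat.Agent.GR Fermat.Agent.GR.E Fermat.Agent.GR.D.Vert Fermat.Agent.GT.EMB ModularCurve

noncomputable section

variable {L L' : Type} [Field L] [Field L'] [Algebra L L']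
  {R : ValuationSubring L} [IsDiscreteValuationRing R]
  {R' : ValuationSubring L'} [IsDiscreteValuationRing R']
  {q M0 : ℕ} [NeZero q] [NeZero M0] [NeZero (q * M0)] [NeZero (q ^ 2 * M0)] {ζ : L'ˣ} {ϖ : R}

theorem baseHyp_of_towerData (C : Ctx R R' q M0 ζ ϖ)
    (T : letI := algFF L (dvd_q0 q M0)
      GS.TowerData ϖ (gaussO R M0) (gaussO R (q * M0)) ((wQ L q M0).restrictScalars R)) :
    BaseHyp R q M0 ϖ := by
  letI := algFF L (dvd_q0 q M0)
  refine ⟨T.gauss1, T.comap, ?_, ?_, ?_⟩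
  · intro x
    have e : algebraMap (FF L M0) (FF L (q * M0)) x = up (dvd_q0 q M0) x := rfl
    rw [e, mem_Ozero', wQ_up0 C x, isGInt_qExpand_iff q (bdd_coe_FF x)]
    exact Iff.rfl
  · intro z h1 h2
    exact T.integral z h1 h2
  · intro z h1 h2
    obtain ⟨f, hf, hfz⟩ := T.res z h1 h2
    exact ⟨f, hf, (gaussRing_mem_nonunits_iff T.gauss _).2 hfz⟩

end

end Fermat.Agent.GT.Val
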