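import Fermat.Agent.GT.Val.Inst.NormDefs

/-!
# GT-VAL, layer Inst, file NormCompat: `NormHyp` from the compatibility of the norms over `L` with
`GT.normFF Qb` and `normT q ζ` over `ℚ̄`

Apply the injective map `coeffMap e` (`e : L' →+* Qb`) to both sides and use `EMB.normFF_eq_prod`,
`EMB.qExpand_normT`, `EMB.normFF_wQ`, `EMB.coeffMap_iotaMid`, `EMB.mapFF_wQ`, `coeffMap_qExpand`.
-/

set_option autoImplicit false
set_option synthInstance.maxHeartbeats 400000
set_option linter.unusedSectionVars false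

namespace Fermat.Agent.GT.Val

open Fermat.Agent.GR Fermat.Agent.GR.E Fermat.Agent.GR.D.Vert Fermat.Agent.GT.EMB ModularCurve
open Fermat.Agent.GT.Glue

noncomputable section

variable {L L' : Type} [Field L] [Field L'] [Algebra L L']
  {R : ValuationSubring L} [IsDiscreteValuationRing R]
  {R' : ValuationSubring L'} [IsDiscreteValuationRing R']
  {q M0 : ℕ} [NeZero q] [NeZero M0] [NeZero (q * M0)] [NeZero (q ^ 2 * M0)] {ζ : L'ˣ} {ϖ : R}

variable {N1 N2 : FF L (q ^ 2 * M0) →* FF L (q * M0)}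

theorem normHyp_of_compat (C : Ctx R R' q M0 ζ ϖ) (e : L' →+* Qb)
    (h1 : ∀ x, mapFF (e.comp (algebraMap L L')) (q * M0) (N1 x) =
      normFF Qb (dvd_sq q M0) (mapFF (e.comp (algebraMap L L')) (q ^ 2 * M0) x))
    (h2 : ∀ x, coeffMap (e.comp (algebraMap L L')) (N2 x : LaurentSeries L) =
      normT q (Units.map (e : L' →* Qb) ζ)
        (coeffMap (e.comp (algebraMap L L')) (x : LaurentSeries L))) :
    NormHyp q M0 ζ N1 N2 := by
  obtain ⟨ι⟩ : Nonempty (Qb →+* ℂ) := S24.nonempty_iotaC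
  have hq := C.prime
  have hqM := C.ndvd
  have hroot' : IsPrimitiveRoot (Units.map (e : L' →* Qb) ζ) q :=
    C.root.map_of_injective (Units.map_injective e.injective)
  have hinj : Function.Injective (coeffMap e) := (coeffMap e).injective
  have hcop : q.Coprime M0 := (Nat.Prime.coprime_iff_not_dvd hq).2 hqM
  have hcop2 : (q ^ 2).Coprime M0 := Nat.Coprime.pow_left 2 hcop
  have hmm : ∀ (N : ℕ) (x : FF L N), mapFF e N (mapFF (algebraMap L L') N x) =
      mapFF (e.comp (algebraMap L L')) N x := fun N x => Subtype.ext (by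
    rw [coe_mapFF, coe_mapFF, coe_mapFF, coeffMap_coeffMap])
  refine ⟨fun x => ?_, fun x => ?_, fun x => ?_⟩
  · apply hinj
    rw [coeffMap_coeffMap, map_mul, coeffMap_coeffMap, map_prod]
    have h3 : coeffMap (e.comp (algebraMap L L')) (N1 x : LaurentSeries L) =
        ((normFF Qb (dvd_sq q M0) (mapFF (e.comp (algebraMap L L')) (q ^ 2 * M0) x) :
          FF Qb (q * M0)) : LaurentSeries Qb) := by
      rw [← h1 x, coe_mapFF]
    rw [h3]
    refine (normFF_eq_prod hq hqM _ hroot' (mapFF (e.comp (algebraMap L L')) _ x)).trans ?_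
    rw [coe_mapFF]
    congr 1
    refine Finset.prod_congr rfl fun a ha => ?_
    rw [Finset.mem_Ico] at ha
    have hprim : IsPrimitiveRoot (ζ ^ a) q := C.root.pow_of_coprime a
      (Nat.Coprime.symm ((Nat.Prime.coprime_iff_not_dvd hq).2
        (Nat.not_dvd_of_pos_of_lt (by omega) ha.2)))
    change _ = coeffMap e (iotaMid L' q M0 (ζ ^ a) (mapFF (algebraMap L L') _ x))
    rw [coeffMap_iotaMid ι e hq hqM (ζ ^ a) hprim, hmm, map_pow]
  · apply hinj
    rw [coeffMap_qExpand, coeffMap_coeffMap, h2 x, qExpand_normT _ hroot', map_prod]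
    refine Finset.prod_congr rfl fun j _ => ?_
    rw [coeffMap_scaleHom, coeffMap_coeffMap, map_pow]
  · apply (mapFF (e.comp (algebraMap L L')) (q * M0)).injective
    rw [mapFF_wQ ι (e.comp (algebraMap L L')) q M0 hcop, h1 x]
    have hux : wQ Qb (q ^ 2) M0 (wQ Qb (q ^ 2) M0 (mapFF (e.comp (algebraMap L L')) _ x)) =
        mapFF (e.comp (algebraMap L L')) _ x := wQ_wQ ι (q ^ 2) M0 hcop2 _
    have hy : (mapFF (e.comp (algebraMap L L')) (q * M0) (N2 (wQ L (q ^ 2) M0 x)) :
        LaurentSeries Qb) = normT q (Units.map (e : L' →* Qb) ζ)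
          (wQ Qb (q ^ 2) M0 (mapFF (e.comp (algebraMap L L')) _ x) : LaurentSeries Qb) := by
      rw [coe_mapFF, h2, ← coe_mapFF (e.comp (algebraMap L L')),
        mapFF_wQ ι (e.comp (algebraMap L L')) (q ^ 2) M0 hcop2]
    have hmem : normT q (Units.map (e : L' →* Qb) ζ)
        (wQ Qb (q ^ 2) M0 (mapFF (e.comp (algebraMap L L')) _ x) : LaurentSeries Qb) ∈
          FF Qb (q * M0) := hy ▸ (mapFF (e.comp (algebraMap L L')) (q * M0) _).2
    have h4 := normFF_wQ hq hqM _ hroot' _ hmem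
    rw [hux] at h4
    have h5 : normFF Qb (dvd_sq q M0) (mapFF (e.comp (algebraMap L L')) _ x) =
        wQ Qb q M0 ⟨_, hmem⟩ := h4
    rw [h5, wQ_wQ ι q M0 hcop]
    exact Subtype.ext hy.symm

end

end Fermat.Agent.GT.Val
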