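import Fermat.Agent.GT.Val.Inst.Tower
import Fermat.Agent.GR.D.Vert.Fin
import Fermat.Agent.GR.D.Top.Param

/-!
# GT-VAL, layer Inst, file Chart: the charts `chart R {t}` of `FF L (q² M0)`, `t` of level `M0`

`t0 = t`, `t1 = t(X^q)`, `t2 = t(X^{q²})`, `τ = gredFun R t`.  Reductions:
`∞ : (τ, τ^q, τ^{q²})`, `mid : (τ, τ^q, τ)`, `0 : (τ^{q²}, τ^q, τ)` (`w` exchanges `t0` and `t2` and fixes `t1`).
-/

set_option autoImplicit false

set_option synthInstance.maxHeartbeats 400000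

set_option linter.unusedSectionVars false

namespace Fermat.Agent.GT.Val

open Fermat.Agent.GR Fermat.Agent.GR.E Fermat.Agent.GR.D.Vert Fermat.Agent.GT.EMB ModularCurve

noncomputable section

variable {L L' : Type} [Field L] [Field L'] [Algebra L L']
  {R : ValuationSubring L} [IsDiscreteValuationRing R]
  {R' : ValuationSubring L'} [IsDiscreteValuationRing R']
  {q M0 : ℕ} [NeZero q] [NeZero M0] [NeZero (q * M0)] [NeZero (q ^ 2 * M0)] {ζ : L'ˣ} {ϖ : R}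

/-- `f ↦ f(X^q)`, level `M0` to level `q M0`. -/
def V1 (L : Type) [Field L] (q M0 : ℕ) [NeZero q] : FF L M0 →+* FF L (q * M0) :=
  Level_expHom L q M0 (q * M0) (dvd_refl _)

/-- `f ↦ f(X^q)`, level `q M0` to level `q² M0`. -/
def V2 (L : Type) [Field L] (q M0 : ℕ) [NeZero q] : FF L (q * M0) →+* FF L (q ^ 2 * M0) :=
  Level_expHom L q (q * M0) (q ^ 2 * M0) ⟨1, by ring⟩

@[simp] theorem coe_V1 (f : FF L M0) :
    (V1 L q M0 f : LaurentSeries L) = qExpand L q (f : LaurentSeries L) := rfl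

@[simp] theorem coe_V2 (f : FF L (q * M0)) :
    (V2 L q M0 f : LaurentSeries L) = qExpand L q (f : LaurentSeries L) := rfl

/-- The hypotheses on the base function `t` (to be applied to `t = h_r` and `t = h_r⁻¹`). -/
structure TPar (R : ValuationSubring L) [IsDiscreteValuationRing R] (q M0 : ℕ) [NeZero q] (ϖ : R)
    (t : FF L M0) : Prop where
  param : IsParam R M0 t
  good : GoodChart ϖ (gaussO R M0) (chart R ({t} : Set (FF L M0)))
  /-- `t(X^q) ≡ t^q` -/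
  frob : gredFun R (qExpand L q (t : LaurentSeries L)) = gredFun R (t : LaurentSeries L) ^ q
  /-- `t(X^q)` is integral over `R[t]` (GS: `TowerChart.wt_mem_chart`) -/
  wint : V1 L q M0 t ∈ chart R ({up (dvd_q0 q M0) t} : Set (FF L (q * M0)))

variable {t : FF L M0}

/-- `t0` -/
abbrev t0F (q : ℕ) (t : FF L M0) : FF L (q ^ 2 * M0) := up (dvd_sq0 q M0) t

/-- `t1` -/
abbrev t1F (q : ℕ) [NeZero q] (t : FF L M0) : FF L (q ^ 2 * M0) := up (dvd_sq q M0) (V1 L q M0 t)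

/-- `t2` -/
abbrev t2F (q : ℕ) [NeZero q] (t : FF L M0) : FF L (q ^ 2 * M0) := V2 L q M0 (V1 L q M0 t)

/-! ### integrality (`map_mem_chart`, `chart_le_chart` of Tower/Basic.lean) -/

theorem Chart_algebraMap_eq (R : ValuationSubring L) (N : ℕ) (r : R) :
    algebraMap R (FF L N) r = algebraMap L (FF L N) (r : L) := rfl

/-- `up` as an `R`-algebra homomorphism. -/
def Chart_upHom (R : ValuationSubring L) {N N' : ℕ} (h : N ∣ N') : FF L N →ₐ[R] FF L N' :=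
  { (IntermediateField.inclusion (FF_mono L h)).toRingHom with
    commutes' := fun r => by
      rw [Chart_algebraMap_eq, Chart_algebraMap_eq]
      exact (IntermediateField.inclusion (FF_mono L h)).commutes (r : L) }

theorem Chart_upHom_apply {N N' : ℕ} (h : N ∣ N') (u : FF L N) : Chart_upHom R h u = up h u := rfl

/-- `V2` as an `R`-algebra homomorphism. -/
def Chart_V2Hom (R : ValuationSubring L) (q M0 : ℕ) [NeZero q] :
    FF L (q * M0) →ₐ[R] FF L (q ^ 2 * M0) :=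
  { V2 L q M0 with
    commutes' := fun r => by
      rw [Chart_algebraMap_eq, Chart_algebraMap_eq]
      exact Level_expHom_algebraMap L q (q * M0) (q ^ 2 * M0) _ (r : L) }

theorem Chart_V2Hom_apply (f : FF L (q * M0)) : Chart_V2Hom R q M0 f = V2 L q M0 f := rfl

theorem Chart_up_up (t : FF L M0) : up (dvd_sq q M0) (up (dvd_q0 q M0) t) = t0F q t := by
  apply Subtype.ext
  rw [coe_up, coe_up, coe_up]

theorem Chart_V2_up (t : FF L M0) : V2 L q M0 (up (dvd_q0 q M0) t) = t1F q t := by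
  apply Subtype.ext
  rw [coe_V2, coe_up, coe_up, coe_V1]

theorem t1F_mem_chart (ht : TPar R q M0 ϖ t) :
    t1F q t ∈ chart R ({t0F q t} : Set (FF L (q ^ 2 * M0))) := by
  have h := map_mem_chart (Chart_upHom R (dvd_sq q M0)) ht.wint
  rw [Set.image_singleton, Chart_upHom_apply, Chart_upHom_apply, Chart_up_up] at h
  exact h

/-- apply `V2` (an `R`-algebra homomorphism) to `ht.wint`: `t2 ∈ chart R {t1} ≤ chart R {t0}`. -/
theorem t2F_mem_chart (ht : TPar R q M0 ϖ t) :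
    t2F q t ∈ chart R ({t0F q t} : Set (FF L (q ^ 2 * M0))) := by
  have h := map_mem_chart (Chart_V2Hom R q M0) ht.wint
  rw [Set.image_singleton, Chart_V2Hom_apply, Chart_V2Hom_apply, Chart_V2_up] at h
  refine chart_le_chart (fun s hs => ?_) h
  rw [Set.mem_singleton_iff] at hs
  rw [hs]
  exact t1F_mem_chart ht

/-! ### the action of `w_{q²}` -/

theorem Chart_qExpand_congr {a b : ℕ} [NeZero a] [NeZero b] (h : a = b) (f : LaurentSeries L) :
    qExpand L a f = qExpand L b f := by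
  subst h
  rfl

theorem wQ_t0F (C : Ctx R R' q M0 ζ ϖ) (t : FF L M0) : wQ L (q ^ 2) M0 (t0F q t) = t2F q t := by
  apply Subtype.ext
  rw [wQ_sq_up0 C t, coe_V2, coe_V1, qExpand_qExpand]
  exact Chart_qExpand_congr (pow_two q) _

theorem Chart_wQ_V1 (C : Ctx R R' q M0 ζ ϖ) (t : FF L M0) :
    wQ L q M0 (V1 L q M0 t) = up (dvd_q0 q M0) t := by
  obtain ⟨ι⟩ := C.exists_embC'
  have h : wQ L q M0 (up (dvd_q0 q M0) t) = V1 L q M0 t := by
    apply Subtype.ext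
    rw [wQ_up0 C t, coe_V1]
  rw [← h, wQ_wQ ι q M0 C.coprime]

theorem wQ_t1F (C : Ctx R R' q M0 ζ ϖ) (t : FF L M0) : wQ L (q ^ 2) M0 (t1F q t) = t1F q t := by
  apply Subtype.ext
  rw [wQ_sq_up C (V1 L q M0 t), Chart_wQ_V1 C t, coe_up, coe_up, coe_V1]

theorem wQ_t2F (C : Ctx R R' q M0 ζ ϖ) (t : FF L M0) : wQ L (q ^ 2) M0 (t2F q t) = t0F q t := by
  obtain ⟨ι⟩ := C.exists_embC'
  rw [← wQ_t0F C t, wQ_wQ ι (q ^ 2) M0 C.coprime_sq]

/-- `w_{q²}` as an `R`-algebra automorphism. -/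
def Chart_wEquiv (R : ValuationSubring L) (q M0 : ℕ) [NeZero (q ^ 2 * M0)] :
    FF L (q ^ 2 * M0) ≃ₐ[R] FF L (q ^ 2 * M0) :=
  AlgEquiv.ofRingEquiv (f := (wQ L (q ^ 2) M0).toRingEquiv) fun r => by
    rw [Chart_algebraMap_eq]
    exact (wQ L (q ^ 2) M0).commutes (r : L)

theorem Chart_wEquiv_apply (x : FF L (q ^ 2 * M0)) :
    Chart_wEquiv R q M0 x = wQ L (q ^ 2) M0 x := rfl

theorem wQ_mem_chart (C : Ctx R R' q M0 ζ ϖ) (ht : TPar R q M0 ϖ t) {x : FF L (q ^ 2 * M0)}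
    (hx : x ∈ chart R ({t0F q t} : Set (FF L (q ^ 2 * M0)))) :
    wQ L (q ^ 2) M0 x ∈ chart R ({t0F q t} : Set (FF L (q ^ 2 * M0))) := by
  have h := map_mem_chart (Chart_wEquiv R q M0 : FF L (q ^ 2 * M0) →ₐ[R] FF L (q ^ 2 * M0)) hx
  rw [Set.image_singleton, AlgEquiv.coe_toAlgHom, Chart_wEquiv_apply, Chart_wEquiv_apply,
    wQ_t0F C t] at h
  refine chart_le_chart (fun s hs => ?_) h
  rw [Set.mem_singleton_iff] at hs
  rw [hs]
  exact t2F_mem_chart ht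

theorem transp_two_zero (C : Ctx R R' q M0 ζ ϖ) (ht : TPar R q M0 ϖ t) :
    Transp (vfam R R' q M0 ζ) (chart R ({t0F q t} : Set (FF L (q ^ 2 * M0)))) 2 0 := by
  obtain ⟨ι⟩ := C.exists_embC'
  refine ⟨Chart_wEquiv R q M0, fun x => ?_, fun x hx => ?_, fun x hx => ?_⟩
  · rw [vfam_two, vfam_zero, Chart_wEquiv_apply]
    exact Iff.rfl
  · rw [Chart_wEquiv_apply]
    exact wQ_mem_chart C ht hx
  · have h : (Chart_wEquiv R q M0).symm x = wQ L (q ^ 2) M0 x := by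
      rw [AlgEquiv.symm_apply_eq, Chart_wEquiv_apply, wQ_wQ ι (q ^ 2) M0 C.coprime_sq]
    rw [h]
    exact wQ_mem_chart C ht hx

/-! ### the expansions at the middle cusp -/

theorem midHom_t0F (C : Ctx R R' q M0 ζ ϖ) (t : FF L M0) :
    midHom q M0 ζ (t0F q t) = coeffMap (algebraMap L L') (t : LaurentSeries L) := by
  rw [midHom_of_mem C _ (by rw [coe_up]; exact FF_mono L (dvd_q0 q M0) t.2), coe_up]

theorem midHom_t1F (C : Ctx R R' q M0 ζ ϖ) (t : FF L M0) :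
    midHom q M0 ζ (t1F q t) =
      coeffMap (algebraMap L L') (qExpand L q (t : LaurentSeries L)) := by
  rw [midHom_of_mem C _ (by rw [coe_up]; exact (V1 L q M0 t).2), coe_up, coe_V1]

theorem midHom_t2F (C : Ctx R R' q M0 ζ ϖ) (t : FF L M0) :
    midHom q M0 ζ (t2F q t) = scaleHom ζ (coeffMap (algebraMap L L') (t : LaurentSeries L)) := by
  refine midHom_qExpand_sq C t (t2F q t) ?_
  rw [coe_V2, coe_V1, qExpand_qExpand]
  exact qExpand_congr (pow_two q).symm _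

/-! ### separation of the components -/

/-- `τ^(q^a) ≠ τ^(q^b)` for `a ≠ b` (`τ` is transcendental over the residue field). -/
theorem TPar.pow_ne (ht : TPar R q M0 ϖ t) (hq : 1 < q) {a b : ℕ} (hab : a ≠ b) :
    gredFun R (t : LaurentSeries L) ^ q ^ a ≠ gredFun R (t : LaurentSeries L) ^ q ^ b := by
  intro h
  have h1 : Fermat.Agent.S28.evP (IsLocalRing.ResidueField R) (gredFun R (t : LaurentSeries L))
      (Polynomial.X ^ q ^ a) =
      Fermat.Agent.S28.evP (IsLocalRing.ResidueField R) (gredFun R (t : LaurentSeries L))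
      (Polynomial.X ^ q ^ b) := by
    show Polynomial.aeval _ _ = Polynomial.aeval _ _
    rw [map_pow, map_pow, Polynomial.aeval_X, h]
  have h2 := congrArg Polynomial.natDegree (ht.param.transc h1)
  rw [Polynomial.natDegree_X_pow, Polynomial.natDegree_X_pow] at h2
  exact hab (Nat.pow_right_injective hq h2)

/-! #### the table of reductions -/

theorem chart_inf0 (ht : TPar R q M0 ϖ t) :
    t0F q t ∈ Oinf R q M0 ∧
      gredFun R (t0F q t : LaurentSeries L) = gredFun R (t : LaurentSeries L) ^ q ^ 0 := by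
  rw [mem_Oinf, coe_up, pow_zero, pow_one]
  exact ⟨ht.param.mem, rfl⟩

theorem chart_inf1 (ht : TPar R q M0 ϖ t) :
    t1F q t ∈ Oinf R q M0 ∧
      gredFun R (t1F q t : LaurentSeries L) = gredFun R (t : LaurentSeries L) ^ q ^ 1 := by
  rw [mem_Oinf, coe_up, coe_V1, pow_one]
  exact ⟨isGInt_qExpand q ht.param.mem, ht.frob⟩

theorem chart_inf2 (ht : TPar R q M0 ϖ t) :
    t2F q t ∈ Oinf R q M0 ∧
      gredFun R (t2F q t : LaurentSeries L) = gredFun R (t : LaurentSeries L) ^ q ^ 2 := by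
  rw [mem_Oinf, coe_V2, coe_V1]
  have h1 : IsGInt R (t : LaurentSeries L) := ht.param.mem
  have h2 := isGInt_qExpand q h1
  refine ⟨isGInt_qExpand q h2, ?_⟩
  rw [gredFun_qExpand q h2, ht.frob, map_pow, ← gredFun_qExpand q h1, ht.frob, ← pow_mul, pow_two]

theorem chart_mem_nonunits_Ozero {x : FF L (q ^ 2 * M0)} :
    x ∈ (Ozero R q M0).nonunits ↔ wQ L (q ^ 2) M0 x ∈ (Oinf R q M0).nonunits := by
  rw [mem_nonunits_Ozero, mem_nonunits_Oinf]

/-- congruences at `∞`. -/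
theorem chart_sub_inf {u v : FF L (q ^ 2 * M0)} {τ : LaurentSeries (IsLocalRing.ResidueField R)}
    {a b m n : ℕ}
    (hu : u ∈ Oinf R q M0 ∧ gredFun R (u : LaurentSeries L) = τ ^ q ^ a)
    (hv : v ∈ Oinf R q M0 ∧ gredFun R (v : LaurentSeries L) = τ ^ q ^ b) :
    u ^ q ^ m - v ^ q ^ n ∈ (Oinf R q M0).nonunits ↔ τ ^ q ^ (a + m) = τ ^ q ^ (b + n) := by
  have h := sub_mem_nonunits_gaussO (R := R) (N := q ^ 2 * M0) (u := u ^ q ^ m) (v := v ^ q ^ n)
    ((Oinf R q M0).pow_mem hu.1 _) ((Oinf R q M0).pow_mem hv.1 _)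
  rw [IntermediateField.coe_pow, IntermediateField.coe_pow, gredFun_pow (mem_Oinf.mp hu.1),
    gredFun_pow (mem_Oinf.mp hv.1), hu.2, hv.2, ← pow_mul, ← pow_mul, ← pow_add, ← pow_add] at h
  exact h

/-- congruences at `0`. -/
theorem chart_sub_zero {u v : FF L (q ^ 2 * M0)} {τ : LaurentSeries (IsLocalRing.ResidueField R)}
    {a b m n : ℕ}
    (hu : wQ L (q ^ 2) M0 u ∈ Oinf R q M0 ∧
      gredFun R (wQ L (q ^ 2) M0 u : LaurentSeries L) = τ ^ q ^ a)
    (hv : wQ L (q ^ 2) M0 v ∈ Oinf R q M0 ∧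
      gredFun R (wQ L (q ^ 2) M0 v : LaurentSeries L) = τ ^ q ^ b) :
    u ^ q ^ m - v ^ q ^ n ∈ (Ozero R q M0).nonunits ↔ τ ^ q ^ (a + m) = τ ^ q ^ (b + n) := by
  rw [chart_mem_nonunits_Ozero, map_sub, map_pow, map_pow]
  exact chart_sub_inf hu hv

/-- congruences at the middle cusp. -/
theorem chart_sub_mid (C : Ctx R R' q M0 ζ ϖ) {u v : FF L (q ^ 2 * M0)}
    {τ : LaurentSeries (IsLocalRing.ResidueField R')} {a b m n : ℕ}
    (hu : IsGInt R' (midHom q M0 ζ u) ∧ gredFun R' (midHom q M0 ζ u) = τ ^ q ^ a)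
    (hv : IsGInt R' (midHom q M0 ζ v) ∧ gredFun R' (midHom q M0 ζ v) = τ ^ q ^ b) :
    u ^ q ^ m - v ^ q ^ n ∈ (Omid (L := L) R' q M0 ζ).nonunits ↔
      τ ^ q ^ (a + m) = τ ^ q ^ (b + n) := by
  have h := sub_mem_nonunits_gaussAlong (bdd_midHom C) (u := u ^ q ^ m) (v := v ^ q ^ n)
    ((Omid (L := L) R' q M0 ζ).pow_mem ((mem_Omid C).mpr hu.1) _)
    ((Omid (L := L) R' q M0 ζ).pow_mem ((mem_Omid C).mpr hv.1) _)
  rw [map_pow, map_pow, gredFun_pow hu.1, gredFun_pow hv.1, hu.2, hv.2, ← pow_mul, ← pow_mul,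
    ← pow_add, ← pow_add] at h
  exact h

theorem chart_zero0 (C : Ctx R R' q M0 ζ ϖ) (ht : TPar R q M0 ϖ t) :
    wQ L (q ^ 2) M0 (t0F q t) ∈ Oinf R q M0 ∧
      gredFun R (wQ L (q ^ 2) M0 (t0F q t) : LaurentSeries L) =
        gredFun R (t : LaurentSeries L) ^ q ^ 2 := by
  rw [wQ_t0F C]
  exact chart_inf2 ht

theorem chart_zero1 (C : Ctx R R' q M0 ζ ϖ) (ht : TPar R q M0 ϖ t) :
    wQ L (q ^ 2) M0 (t1F q t) ∈ Oinf R q M0 ∧
      gredFun R (wQ L (q ^ 2) M0 (t1F q t) : LaurentSeries L) =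
        gredFun R (t : LaurentSeries L) ^ q ^ 1 := by
  rw [wQ_t1F C]
  exact chart_inf1 ht

theorem chart_zero2 (C : Ctx R R' q M0 ζ ϖ) (ht : TPar R q M0 ϖ t) :
    wQ L (q ^ 2) M0 (t2F q t) ∈ Oinf R q M0 ∧
      gredFun R (wQ L (q ^ 2) M0 (t2F q t) : LaurentSeries L) =
        gredFun R (t : LaurentSeries L) ^ q ^ 0 := by
  rw [wQ_t2F C]
  exact chart_inf0 ht

theorem chart_mid0 (C : Ctx R R' q M0 ζ ϖ) (ht : TPar R q M0 ϖ t) :
    IsGInt R' (midHom q M0 ζ (t0F q t)) ∧ gredFun R' (midHom q M0 ζ (t0F q t)) =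
      gredFun R' (coeffMap (algebraMap L L') (t : LaurentSeries L)) ^ q ^ 0 := by
  rw [midHom_t0F C, pow_zero, pow_one]
  exact ⟨isGInt_coeffMap C.comap ht.param.mem, rfl⟩

theorem chart_mid1 (C : Ctx R R' q M0 ζ ϖ) (ht : TPar R q M0 ϖ t) :
    IsGInt R' (midHom q M0 ζ (t1F q t)) ∧ gredFun R' (midHom q M0 ζ (t1F q t)) =
      gredFun R' (coeffMap (algebraMap L L') (t : LaurentSeries L)) ^ q ^ 1 := by
  have h1 : IsGInt R (t : LaurentSeries L) := ht.param.mem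
  have h2 := isGInt_qExpand q h1
  have h3 : IsGInt R ((t : LaurentSeries L) ^ q) := (gaussQ R L).pow_mem h1 q
  rw [midHom_t1F C, pow_one]
  refine ⟨isGInt_coeffMap C.comap h2, ?_⟩
  rw [(gredFun_coeffMap_eq_iff C.comap h2 h3).mpr (by rw [ht.frob, gredFun_pow h1]), map_pow,
    gredFun_pow (isGInt_coeffMap C.comap h1)]

theorem chart_mid2 (C : Ctx R R' q M0 ζ ϖ) (ht : TPar R q M0 ϖ t) :
    IsGInt R' (midHom q M0 ζ (t2F q t)) ∧ gredFun R' (midHom q M0 ζ (t2F q t)) =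
      gredFun R' (coeffMap (algebraMap L L') (t : LaurentSeries L)) ^ q ^ 0 := by
  rw [midHom_t2F C, pow_zero, pow_one]
  exact gredFun_scaleHom ζ
    (root_sub_one_mem_nonunits C.prime C.q_mem_nonunits ζ C.root.pow_eq_one)
    (isGInt_coeffMap C.comap ht.param.mem)

/-- `τ'^(q^a) ≠ τ'^(q^b)` for `a ≠ b`, over the residue field of `R'`. -/
theorem chart_pow_ne' (C : Ctx R R' q M0 ζ ϖ) (ht : TPar R q M0 ϖ t) {a b : ℕ} (hab : a ≠ b) :
    gredFun R' (coeffMap (algebraMap L L') (t : LaurentSeries L)) ^ q ^ a ≠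
      gredFun R' (coeffMap (algebraMap L L') (t : LaurentSeries L)) ^ q ^ b := by
  have h1 : IsGInt R (t : LaurentSeries L) := ht.param.mem
  have h1' := isGInt_coeffMap C.comap h1
  intro h
  rw [← gredFun_pow h1', ← gredFun_pow h1', ← map_pow, ← map_pow,
    gredFun_coeffMap_eq_iff C.comap ((gaussQ R L).pow_mem h1 _) ((gaussQ R L).pow_mem h1 _),
    gredFun_pow h1, gredFun_pow h1] at h
  exact ht.pow_ne C.prime.one_lt hab h

theorem chart_pow_zero (x : FF L (q ^ 2 * M0)) : x ^ q ^ 0 = x := by rw [pow_zero, pow_one]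

theorem chart_pow_one (x : FF L (q ^ 2 * M0)) : x ^ q ^ 1 = x ^ q := by rw [pow_one]

/-- `t2 - t0 ∈ 𝔪_mid`, unit at `∞` and at `0`. -/
theorem sep_mid (C : Ctx R R' q M0 ζ ϖ) (ht : TPar R q M0 ϖ t) :
    t2F q t - t0F q t ∈ (Omid (L := L) R' q M0 ζ).nonunits ∧
      t2F q t - t0F q t ∉ (Oinf R q M0).nonunits ∧ t2F q t - t0F q t ∉ (Ozero R q M0).nonunits := by
  have e : t2F q t - t0F q t = t2F q t ^ q ^ 0 - t0F q t ^ q ^ 0 := by
    rw [chart_pow_zero, chart_pow_zero]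
  rw [e]
  refine ⟨(chart_sub_mid C (chart_mid2 C ht) (chart_mid0 C ht)).mpr rfl, fun h => ?_, fun h => ?_⟩
  · exact ht.pow_ne C.prime.one_lt (by norm_num)
      ((chart_sub_inf (chart_inf2 ht) (chart_inf0 ht)).mp h)
  · exact ht.pow_ne C.prime.one_lt (by norm_num)
      ((chart_sub_zero (chart_zero2 C ht) (chart_zero0 C ht)).mp h)

/-- `t1 - t0^q ∈ 𝔪_∞ ∩ 𝔪_mid`, unit at `0`. -/
theorem sep_inf_mid (C : Ctx R R' q M0 ζ ϖ) (ht : TPar R q M0 ϖ t) :
    t1F q t - t0F q t ^ q ∈ (Oinf R q M0).nonunits ∧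
      t1F q t - t0F q t ^ q ∈ (Omid (L := L) R' q M0 ζ).nonunits ∧
      t1F q t - t0F q t ^ q ∉ (Ozero R q M0).nonunits := by
  have e : t1F q t - t0F q t ^ q = t1F q t ^ q ^ 0 - t0F q t ^ q ^ 1 := by
    rw [chart_pow_zero, chart_pow_one]
  rw [e]
  refine ⟨(chart_sub_inf (chart_inf1 ht) (chart_inf0 ht)).mpr rfl,
    (chart_sub_mid C (chart_mid1 C ht) (chart_mid0 C ht)).mpr rfl, fun h => ?_⟩
  exact ht.pow_ne C.prime.one_lt (by norm_num)
    ((chart_sub_zero (chart_zero1 C ht) (chart_zero0 C ht)).mp h)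

/-- `t1 - t2^q ∈ 𝔪_0 ∩ 𝔪_mid`, unit at `∞`. -/
theorem sep_zero_mid (C : Ctx R R' q M0 ζ ϖ) (ht : TPar R q M0 ϖ t) :
    t1F q t - t2F q t ^ q ∈ (Ozero R q M0).nonunits ∧
      t1F q t - t2F q t ^ q ∈ (Omid (L := L) R' q M0 ζ).nonunits ∧
      t1F q t - t2F q t ^ q ∉ (Oinf R q M0).nonunits := by
  have e : t1F q t - t2F q t ^ q = t1F q t ^ q ^ 0 - t2F q t ^ q ^ 1 := by
    rw [chart_pow_zero, chart_pow_one]
  rw [e]
  refine ⟨(chart_sub_zero (chart_zero1 C ht) (chart_zero2 C ht)).mpr rfl,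
    (chart_sub_mid C (chart_mid1 C ht) (chart_mid2 C ht)).mpr rfl, fun h => ?_⟩
  exact ht.pow_ne C.prime.one_lt (by norm_num)
    ((chart_sub_inf (chart_inf1 ht) (chart_inf2 ht)).mp h)

/-- `t2 - t0^(q²) ∈ 𝔪_∞`, unit at `mid`. -/
theorem sep_inf (C : Ctx R R' q M0 ζ ϖ) (ht : TPar R q M0 ϖ t) :
    t2F q t - t0F q t ^ q ^ 2 ∈ (Oinf R q M0).nonunits ∧
      t2F q t - t0F q t ^ q ^ 2 ∉ (Omid (L := L) R' q M0 ζ).nonunits := by
  have e : t2F q t - t0F q t ^ q ^ 2 = t2F q t ^ q ^ 0 - t0F q t ^ q ^ 2 := by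
    rw [chart_pow_zero]
  rw [e]
  refine ⟨(chart_sub_inf (chart_inf2 ht) (chart_inf0 ht)).mpr rfl, fun h => ?_⟩
  exact chart_pow_ne' C ht (by norm_num)
    ((chart_sub_mid C (chart_mid2 C ht) (chart_mid0 C ht)).mp h)

/-- `t0 - t2^(q²) ∈ 𝔪_0`, unit at `mid`. -/
theorem sep_zero (C : Ctx R R' q M0 ζ ϖ) (ht : TPar R q M0 ϖ t) :
    t0F q t - t2F q t ^ q ^ 2 ∈ (Ozero R q M0).nonunits ∧
      t0F q t - t2F q t ^ q ^ 2 ∉ (Omid (L := L) R' q M0 ζ).nonunits := by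
  have e : t0F q t - t2F q t ^ q ^ 2 = t0F q t ^ q ^ 0 - t2F q t ^ q ^ 2 := by
    rw [chart_pow_zero]
  rw [e]
  refine ⟨(chart_sub_zero (chart_zero0 C ht) (chart_zero2 C ht)).mpr rfl, fun h => ?_⟩
  exact chart_pow_ne' C ht (by norm_num)
    ((chart_sub_mid C (chart_mid0 C ht) (chart_mid2 C ht)).mp h)

theorem sep_all (C : Ctx R R' q M0 ζ ϖ) (ht : TPar R q M0 ϖ t) :
    ∀ i j, i ≠ j → ∃ e ∈ chart R ({t0F q t} : Set (FF L (q ^ 2 * M0))),
      e ∈ (vfam R R' q M0 ζ j).nonunits ∧ e ∉ (vfam R R' q M0 ζ i).nonunits := by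
  have h0 : t0F q t ∈ chart R ({t0F q t} : Set (FF L (q ^ 2 * M0))) :=
    subset_chart (Set.mem_singleton _)
  have h1 := t1F_mem_chart ht
  have h2 := t2F_mem_chart ht
  intro i j hij
  fin_cases i <;> fin_cases j
  · exact absurd rfl hij
  · -- i = ∞, j = mid
    exact ⟨_, sub_mem h2 h0, (sep_mid C ht).1, (sep_mid C ht).2.1⟩
  · -- i = ∞, j = 0
    exact ⟨_, sub_mem h1 (pow_mem h2 q), (sep_zero_mid C ht).1, (sep_zero_mid C ht).2.2⟩
  · -- i = mid, j = ∞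
    exact ⟨_, sub_mem h2 (pow_mem h0 _), (sep_inf C ht).1, (sep_inf C ht).2⟩
  · exact absurd rfl hij
  · -- i = mid, j = 0
    exact ⟨_, sub_mem h0 (pow_mem h2 _), (sep_zero C ht).1, (sep_zero C ht).2⟩
  · -- i = 0, j = ∞
    exact ⟨_, sub_mem h1 (pow_mem h0 q), (sep_inf_mid C ht).1, (sep_inf_mid C ht).2.2⟩
  · -- i = 0, j = mid
    exact ⟨_, sub_mem h2 h0, (sep_mid C ht).1, (sep_mid C ht).2.2⟩
  · exact absurd rfl hij

/-! ### finiteness -/

theorem isParam_up [CharZero L] (ht : IsParam R M0 t) : IsParam R (q ^ 2 * M0) (t0F q t) := by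
  refine ⟨?_, ?_, ?_⟩
  · rw [mem_gaussO, coe_up]
    exact ht.mem
  · rw [coe_up]
    exact ht.transc
  · have h1 : IntermediateField.inclusion (FF_mono L (dvd_sq0 q M0)) (jFF M0) ∈
        (IntermediateField.adjoin L {t}).map
          (IntermediateField.inclusion (FF_mono L (dvd_sq0 q M0))) :=
      (IntermediateField.mem_map _).mpr ⟨_, ht.j_mem, rfl⟩
    rw [IntermediateField.adjoin_map, Set.image_singleton] at h1
    have h2 : IntermediateField.inclusion (FF_mono L (dvd_sq0 q M0)) (jFF M0) =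
        jFF (q ^ 2 * M0) :=
      Subtype.ext (IntermediateField.coe_inclusion (FF_mono L (dvd_sq0 q M0)) _)
    rw [h2] at h1
    exact h1

theorem fin_t0F [CharZero L] (ht : IsParam R M0 t) :
    Module.Finite (Algebra.adjoin R ({t0F q t} : Set (FF L (q ^ 2 * M0))))
      (integralClosure (Algebra.adjoin R ({t0F q t} : Set (FF L (q ^ 2 * M0))))
        (FF L (q ^ 2 * M0))) :=
  Fermat.Agent.GR.D.Vert.finite (isParam_up ht)

/-! ### assembly -/

theorem vChart [CharZero L] (C : Ctx R R' q M0 ζ ϖ) (B : BaseHyp R q M0 ϖ)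
    (ht : TPar R q M0 ϖ t) :
    letI := algFF L (dvd_sq0 q M0)
    VChart ϖ (gaussO R M0) (vfam R R' q M0 ζ) t := by
  letI := algFF L (dvd_sq0 q M0)
  refine ⟨ht.good, fin_t0F ht.param, sep_all C ht, ?_⟩
  intro i
  fin_cases i
  · exact Or.inl (resEq_zero C B)
  · exact Or.inl (resEq_one C B)
  · exact Or.inr ⟨0, resEq_zero C B, transp_two_zero C ht⟩

/-- EXPORT. -/
theorem multiChart [CharZero L] (C : Ctx R R' q M0 ζ ϖ) (B : BaseHyp R q M0 ϖ)
    (ht : TPar R q M0 ϖ t) :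
    MultiChart ϖ (vfam R R' q M0 ζ) (chart R ({t0F q t} : Set (FF L (q ^ 2 * M0)))) := by
  letI := algFF L (dvd_sq0 q M0)
  haveI := isScalarTower_algFF (L := L) (R := R) (dvd_sq0 q M0)
  exact multiChart_of_tower C.irr (vTower C B) (vChart C B ht)

theorem t0F_mem (C : Ctx R R' q M0 ζ ϖ) (ht : IsParam R M0 t) :
    ∀ i, t0F q t ∈ vfam R R' q M0 ζ i := by
  have hG : IsGInt R (t : LaurentSeries L) := ht.mem
  intro i
  fin_cases i
  · change t0F q t ∈ Oinf R q M0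
    rw [mem_Oinf, coe_up]
    exact hG
  · change t0F q t ∈ Omid (L := L) R' q M0 ζ
    have e : t0F q t = up (dvd_sq q M0) (up (dvd_q0 q M0) t) := by
      apply Subtype.ext
      rw [coe_up, coe_up, coe_up]
    rw [e, up_mem_Omid C, mem_gaussO, coe_up]
    exact hG
  · change t0F q t ∈ Ozero R q M0
    rw [mem_Ozero, wQ_sq_up0 C]
    exact isGInt_qExpand _ hG

theorem t0F_inv_mem (C : Ctx R R' q M0 ζ ϖ) (ht : IsParam R M0 t) :
    ∀ i, (t0F q t)⁻¹ ∈ vfam R R' q M0 ζ i := by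
  have e : (t0F q t)⁻¹ = t0F q t⁻¹ :=
    (map_inv₀ (IntermediateField.inclusion (FF_mono L (dvd_sq0 q M0))) t).symm
  rw [e]
  exact t0F_mem C (Fermat.Agent.GR.D.Top.IsParam.inv ht)

theorem t0F_transcendental [CharZero L] (ht : IsParam R M0 t) : Transcendental R (t0F q t) := by
  exact (isParam_up (q := q) ht).transcendental.restrictScalars
    (FaithfulSMul.algebraMap_injective R L)

end

end Fermat.Agent.GT.Val
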