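import Fermat.Agent.GT.Val.Inst.Defs
import Fermat.Agent.GT.Val.Gauss.Formal

/-!
# GT-VAL, layer Inst, file Basic: the three embeddings on the subfields of lower level

WARNING (kernel): never prove an equality between coercions from two DIFFERENT levels
`FF L N`, `FF L N'` by `rfl` (the kernel tries to unify `FF L N` with `FF L N'` and times out);
use `coe_up`, `IntermediateField.coe_inclusion`, `Subtype.ext`.
-/

set_option autoImplicit false
set_option synthInstance.maxHeartbeats 400000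
set_option linter.unusedSectionVars false

namespace Fermat.Agent.GT.Val

open Fermat.Agent.GR Fermat.Agent.GR.E Fermat.Agent.GR.D.Vert Fermat.Agent.GT.EMB ModularCurve

noncomputable section

variable {L L' : Type} [Field L] [Field L'] [Algebra L L']
  {R : ValuationSubring L} [IsDiscreteValuationRing R]
  {R' : ValuationSubring L'} [IsDiscreteValuationRing R']
  {q M0 : ℕ} [NeZero q] [NeZero M0] [NeZero (q * M0)] [NeZero (q ^ 2 * M0)] {ζ : L'ˣ} {ϖ : R}

/-- an embedding `L' → ℂ`. -/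
theorem Ctx.exists_embC (C : Ctx R R' q M0 ζ ϖ) : Nonempty (L' →+* ℂ) :=
  C.emb.elim fun e => ⟨Norm1_iota.comp e⟩

theorem Ctx.exists_embC' (C : Ctx R R' q M0 ζ ϖ) : Nonempty (L →+* ℂ) :=
  C.exists_embC.elim fun e => ⟨e.comp (algebraMap L L')⟩

theorem Ctx.coprime_sq (C : Ctx R R' q M0 ζ ϖ) : (q ^ 2).Coprime M0 := by
  exact Nat.Coprime.pow_left 2 ((Nat.Prime.coprime_iff_not_dvd C.prime).mpr C.ndvd)

theorem Ctx.coprime (C : Ctx R R' q M0 ζ ϖ) : q.Coprime M0 := by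
  exact (Nat.Prime.coprime_iff_not_dvd C.prime).mpr C.ndvd

/-- `q ∈ 𝔪(R')`. -/
theorem Ctx.q_mem_nonunits (C : Ctx R R' q M0 ζ ϖ) : (q : L') ∈ R'.nonunits := by
  have hϖ0 : (ϖ : L) ≠ 0 := fun h => C.irr.ne_zero (Subtype.ext h)
  have hq0 : (q : L) ≠ 0 := by rw [← C.unif]; exact hϖ0
  have hq0' : (q : L') ≠ 0 := by
    rw [← map_natCast (algebraMap L L')]
    exact (map_ne_zero _).2 hq0
  have key : ∀ {x : L'}, x ≠ 0 → x⁻¹ ∉ R' → R'.valuation x < 1 := by
    intro x hx h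
    rw [← R'.valuation_le_one_iff, map_inv₀, not_le] at h
    have h0 : 0 < R'.valuation x := zero_lt_iff.2 ((Valuation.ne_zero_iff _).2 hx)
    exact (one_lt_inv₀ h0).1 h
  change R'.valuation (q : L') < 1
  apply key hq0'
  rw [← map_natCast (algebraMap L L'), ← map_inv₀, C.comap, ← C.unif]
  intro hinv
  apply C.irr.not_isUnit
  exact IsUnit.of_mul_eq_one (⟨(ϖ : L)⁻¹, hinv⟩ : R) (Subtype.ext (mul_inv_cancel₀ hϖ0))

theorem Ctx.algebraMap_unif (C : Ctx R R' q M0 ζ ϖ) (N : ℕ) :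
    ((algebraMap R (FF L N) ϖ : FF L N) : LaurentSeries L) = HahnSeries.C (q : L) := by
  rw [← C.unif, ← Middle_algebraMap_eq_C]
  rfl

/-- `midHom` is the extension of constants on the functions of level `q M0`
(`iotaMid_of_mem`). -/
theorem midHom_of_mem (C : Ctx R R' q M0 ζ ϖ) (u : FF L (q ^ 2 * M0))
    (hu : (u : LaurentSeries L) ∈ FF L (q * M0)) :
    midHom q M0 ζ u = coeffMap (algebraMap L L') (u : LaurentSeries L) := by
  obtain ⟨ι⟩ := C.exists_embC
  have hmem : (mapFF (algebraMap L L') (q ^ 2 * M0) u : LaurentSeries L') ∈ FF L' (q * M0) := by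
    rw [coe_mapFF]
    exact (mapFF (algebraMap L L') (q * M0) ⟨u, hu⟩).2
  change iotaMid L' q M0 ζ (mapFF (algebraMap L L') (q ^ 2 * M0) u) = _
  rw [iotaMid_of_mem ι C.prime C.ndvd ζ C.root _ hmem, coe_mapFF]

/-- `midHom (f(t^{q²})) = f(ζ t)` for `f` of level `M0` (`iotaMid_qExpand` + `wQ_of_mem`, or
`FF_induction` + `iotaMid_gen_sq`). -/
theorem midHom_qExpand_sq (C : Ctx R R' q M0 ζ ϖ) (f : FF L M0) (u : FF L (q ^ 2 * M0))
    (hu : (u : LaurentSeries L) = qExpand L (q ^ 2) (f : LaurentSeries L)) :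
    midHom q M0 ζ u = scaleHom ζ (coeffMap (algebraMap L L') (f : LaurentSeries L)) := by
  obtain ⟨ι⟩ := C.exists_embC
  let φ₁ : FF L M0 →+* LaurentSeries L' :=
    (midHom q M0 ζ).comp (Level_expHom L (q ^ 2) M0 (q ^ 2 * M0) (dvd_refl _))
  let φ₂ : FF L M0 →+* LaurentSeries L' :=
    (scaleHom ζ).comp ((coeffMap (algebraMap L L')).comp (FF L M0).val.toRingHom)
  have h12 : φ₁ = φ₂ := by
    apply ringHom_ext_gen M0
    · intro c
      change iotaMid L' q M0 ζ (mapFF (algebraMap L L') (q ^ 2 * M0)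
        (Level_expHom L (q ^ 2) M0 (q ^ 2 * M0) (dvd_refl _) (algebraMap L (FF L M0) c))) =
        scaleHom ζ (coeffMap (algebraMap L L') (algebraMap L (LaurentSeries L) c))
      rw [Level_expHom_algebraMap, AtkinLehner_mapFF_algebraMap, AlgHom.commutes,
        Middle_coeffMap_algebraMap, Level_scaleHom_algebraMap]
    · intro d hd
      change iotaMid L' q M0 ζ (mapFF (algebraMap L L') (q ^ 2 * M0)
        (Level_expHom L (q ^ 2) M0 (q ^ 2 * M0) (dvd_refl _) (gen L M0 d hd))) =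
        scaleHom ζ (coeffMap (algebraMap L L') (jd L d))
      rw [Level_expHom_gen, AtkinLehner_mapFF_gen, iotaMid_gen_sq ι C.prime C.ndvd ζ C.root d hd,
        coeffMap_jd]
  have hu' : u = Level_expHom L (q ^ 2) M0 (q ^ 2 * M0) (dvd_refl _) f := Subtype.ext hu
  rw [hu']
  exact DFunLike.congr_fun h12 f

/-- all the expansions at the middle cusp are bounded (`FF_induction`; generators are integral
series: `iotaMid_gen`, `midImg`, `M1_isPrim_gen`, `bdd_scaleHom`). -/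
theorem bdd_midHom (C : Ctx R R' q M0 ζ ϖ) (u : FF L (q ^ 2 * M0)) :
    Bdd R' (midHom q M0 ζ u) := by
  obtain ⟨ι⟩ := C.exists_embC
  have hjd : ∀ d : ℕ, Bdd R' (jd L' d) := by
    intro d
    by_cases hd : d = 0
    · subst hd
      have h0 : jd L' 0 = 0 := dif_pos rfl
      rw [h0]
      have := bdd_C (RK := R') (0 : L')
      rwa [map_zero] at this
    · have : NeZero d := ⟨hd⟩
      rw [jd_eq]
      exact bdd_of_isInt (M1_isPrim_gen R' d).1
  have hroot := root_mem (RK := R') C.prime.pos ζ C.root.pow_eq_one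
  induction u using FF_induction with
  | hgen d hd =>
    change Bdd R' (iotaMid L' q M0 ζ (mapFF (algebraMap L L') (q ^ 2 * M0)
      (gen L (q ^ 2 * M0) d hd)))
    rw [AtkinLehner_mapFF_gen, iotaMid_gen ι C.prime C.ndvd ζ C.root, midImg]
    split_ifs
    · exact bdd_scaleHom ζ hroot.1 hroot.2 (hjd _)
    · exact hjd _
  | hconst c =>
    change Bdd R' (iotaMid L' q M0 ζ (mapFF (algebraMap L L') (q ^ 2 * M0)
      (algebraMap L (FF L (q ^ 2 * M0)) c)))
    rw [AtkinLehner_mapFF_algebraMap, AlgHom.commutes, Middle_algebraMap_eq_C]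
    exact bdd_C _
  | hadd a b ha hb =>
    rw [map_add]
    exact ha.add hb
  | hmul a b ha hb =>
    rw [map_mul]
    exact ha.mul hb
  | hinv a ha =>
    rw [map_inv₀]
    exact ha.inv

theorem mem_Omid (C : Ctx R R' q M0 ζ ϖ) {u : FF L (q ^ 2 * M0)} :
    u ∈ Omid (L := L) R' q M0 ζ ↔ IsGInt R' (midHom q M0 ζ u) :=
  mem_gaussAlong (bdd_midHom C)

theorem mem_nonunits_Omid (C : Ctx R R' q M0 ζ ϖ) {u : FF L (q ^ 2 * M0)} :
    u ∈ (Omid (L := L) R' q M0 ζ).nonunits ↔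
      IsGInt R' (midHom q M0 ζ u) ∧ gredFun R' (midHom q M0 ζ u) = 0 :=
  mem_nonunits_gaussAlong (bdd_midHom C)

theorem mem_nonunits_Oinf {u : FF L (q ^ 2 * M0)} :
    u ∈ (Oinf R q M0).nonunits ↔
      IsGInt R (u : LaurentSeries L) ∧ gredFun R (u : LaurentSeries L) = 0 :=
  mem_nonunits_gaussO

theorem Basic_mem_nonunits_iff {K : Type*} [Field K] (A : ValuationSubring K) (x : K) :
    x ∈ A.nonunits ↔ x = 0 ∨ x⁻¹ ∉ A := by
  rw [ValuationSubring.mem_nonunits_iff]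
  by_cases hx : x = 0
  · simp [hx]
  · rw [← ValuationSubring.valuation_le_one_iff, map_inv₀, not_le]
    have hv : A.valuation x ≠ 0 := (Valuation.ne_zero_iff _).2 hx
    constructor
    · intro h
      exact Or.inr ((one_lt_inv₀ (zero_lt_iff.2 hv)).2 h)
    · rintro (h | h)
      · exact absurd h hx
      · exact (one_lt_inv₀ (zero_lt_iff.2 hv)).1 h

theorem Basic_mem_nonunits_comap {K : Type*} [Field K] (A : ValuationSubring K) (w : K ≃+* K)
    (x : K) : x ∈ (A.comap (w : K →+* K)).nonunits ↔ w x ∈ A.nonunits := by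
  rw [Basic_mem_nonunits_iff, Basic_mem_nonunits_iff, ValuationSubring.mem_comap]
  have h1 : (w : K →+* K) x⁻¹ = (w x)⁻¹ := map_inv₀ w x
  rw [h1, map_eq_zero_iff w w.injective]

theorem mem_nonunits_Ozero {u : FF L (q ^ 2 * M0)} :
    u ∈ (Ozero R q M0).nonunits ↔ IsGInt R (wQ L (q ^ 2) M0 u : LaurentSeries L) ∧
      gredFun R (wQ L (q ^ 2) M0 u : LaurentSeries L) = 0 := by
  rw [← mem_nonunits_gaussO]
  exact Basic_mem_nonunits_comap (gaussO R (q ^ 2 * M0))
    ((wQ L (q ^ 2) M0).toRingEquiv) u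

theorem mem_nonunits_Ozero' {u : FF L (q * M0)} :
    u ∈ (Ozero' R q M0).nonunits ↔ IsGInt R (wQ L q M0 u : LaurentSeries L) ∧
      gredFun R (wQ L q M0 u : LaurentSeries L) = 0 := by
  rw [← mem_nonunits_gaussO]
  exact Basic_mem_nonunits_comap (gaussO R (q * M0)) ((wQ L q M0).toRingEquiv) u

/-- `w_{q²} f = (w_q f)(t^q)` for `f` of level `q M0` (from `wQ_sq_qExpand` and `wQ_wQ`). -/
theorem wQ_sq_up (C : Ctx R R' q M0 ζ ϖ) (f : FF L (q * M0)) :
    (wQ L (q ^ 2) M0 (up (dvd_sq q M0) f) : LaurentSeries L) =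
      qExpand L q (wQ L q M0 f : LaurentSeries L) := by
  obtain ⟨ι⟩ := C.exists_embC'
  have hcop : q.Coprime M0 := (Nat.Prime.coprime_iff_not_dvd C.prime).2 C.ndvd
  have hcop2 : (q ^ 2).Coprime M0 := Nat.Coprime.pow_left 2 hcop
  set g : FF L (q * M0) := wQ L q M0 f with hg
  have hmem : qExpand L q (g : LaurentSeries L) ∈ FF L (q ^ 2 * M0) := by
    have h1 := qExpand_mem_FF (K := L) q (N := q * M0) g.2
    have e : q * (q * M0) = q ^ 2 * M0 := by ring
    rwa [e] at h1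
  have h2 := wQ_sq_qExpand ι C.prime C.ndvd g hmem
  have h3 : wQ L q M0 g = f := by rw [hg]; exact wQ_wQ ι q M0 hcop f
  rw [h3] at h2
  have h4 : wQ L (q ^ 2) M0 ⟨qExpand L q (g : LaurentSeries L), hmem⟩ = up (dvd_sq q M0) f := by
    apply Subtype.ext
    rw [h2, coe_up]
  rw [← h4, wQ_wQ ι (q ^ 2) M0 hcop2]

/-- `w_{q²} f = f(t^{q²})` for `f` of level `M0` (`wQ_of_mem`). -/
theorem wQ_sq_up0 (C : Ctx R R' q M0 ζ ϖ) (f : FF L M0) :
    (wQ L (q ^ 2) M0 (up (dvd_sq0 q M0) f) : LaurentSeries L) =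
      qExpand L (q ^ 2) (f : LaurentSeries L) := by
  obtain ⟨ι⟩ := C.exists_embC'
  have hcop : q.Coprime M0 := (Nat.Prime.coprime_iff_not_dvd C.prime).2 C.ndvd
  have hcop2 : (q ^ 2).Coprime M0 := Nat.Coprime.pow_left 2 hcop
  have : NeZero (q ^ 2) := ⟨pow_ne_zero 2 (NeZero.ne q)⟩
  have h := wQ_of_mem ι (q ^ 2) M0 hcop2 (up (dvd_sq0 q M0) f) (by rw [coe_up]; exact f.2)
  rw [h, coe_up]

/-- `w_q f = f(t^q)` for `f` of level `M0` (`wQ_of_mem`). -/
theorem wQ_up0 (C : Ctx R R' q M0 ζ ϖ) (f : FF L M0) :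
    (wQ L q M0 (up (dvd_q0 q M0) f) : LaurentSeries L) = qExpand L q (f : LaurentSeries L) := by
  obtain ⟨ι⟩ := C.exists_embC'
  have hcop : q.Coprime M0 := (Nat.Prime.coprime_iff_not_dvd C.prime).2 C.ndvd
  have h := wQ_of_mem ι q M0 hcop (up (dvd_q0 q M0) f) (by rw [coe_up]; exact f.2)
  rw [h, coe_up]

/-! ### the restrictions of the three valuations to level `q M0` -/

theorem up_mem_Oinf (f : FF L (q * M0)) :
    up (dvd_sq q M0) f ∈ Oinf R q M0 ↔ f ∈ gaussO R (q * M0) := by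
  rw [mem_Oinf, coe_up]
  exact Iff.rfl

theorem up_mem_Omid (C : Ctx R R' q M0 ζ ϖ) (f : FF L (q * M0)) :
    up (dvd_sq q M0) f ∈ Omid (L := L) R' q M0 ζ ↔ f ∈ gaussO R (q * M0) := by
  rw [mem_Omid C, midHom_of_mem C _ (by rw [coe_up]; exact f.2), coe_up,
    isGInt_coeffMap_iff C.comap (bdd_coe_FF f)]
  exact Iff.rfl

theorem up_mem_Ozero (C : Ctx R R' q M0 ζ ϖ) (f : FF L (q * M0)) :
    up (dvd_sq q M0) f ∈ Ozero R q M0 ↔ f ∈ Ozero' R q M0 := by
  rw [mem_Ozero, wQ_sq_up C f, mem_Ozero', isGInt_qExpand_iff q (bdd_coe_FF _)]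

/-! ### Gauss rings, discreteness -/

theorem Basic_map_unif {N : ℕ} (w : FF L N ≃ₐ[L] FF L N) (ϖ : R) :
    w (algebraMap R (FF L N) ϖ) = algebraMap R (FF L N) ϖ := by
  rw [IsScalarTower.algebraMap_apply R L (FF L N), AlgEquiv.commutes]

theorem Basic_gaussRing_comap {N : ℕ} (w : FF L N ≃ₐ[L] FF L N) {V : ValuationSubring (FF L N)}
    (hG : GaussRing ϖ V) : GaussRing ϖ (V.comap (w : FF L N →+* FF L N)) := by
  refine ⟨hG.ne_zero, ?_, ?_, ?_⟩
  · rw [ValuationSubring.mem_comap]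
    change w _ ∈ V
    rw [Basic_map_unif]
    exact hG.mem
  · rw [ValuationSubring.mem_comap]
    change ¬ w _ ∈ V
    rw [map_inv₀, Basic_map_unif]
    exact hG.inv_not_mem
  · intro x hx
    rw [ValuationSubring.mem_comap] at hx
    rw [ValuationSubring.mem_comap, ValuationSubring.mem_comap]
    change w _ ∈ V ∨ w _ ∈ V
    rw [map_div₀, map_inv₀, Basic_map_unif]
    exact hG.unif _ hx

theorem Basic_disc_comap {N : ℕ} (w : FF L N ≃ₐ[L] FF L N) {V : ValuationSubring (FF L N)}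
    (hD : Disc ϖ V) : Disc ϖ (V.comap (w : FF L N →+* FF L N)) := by
  intro x hx
  obtain ⟨m, hm⟩ := hD (w x) (by simpa using hx)
  refine ⟨m, fun h => hm ?_⟩
  rw [ValuationSubring.mem_comap] at h
  change w _ ∈ V at h
  rwa [map_div₀, map_pow, Basic_map_unif] at h

theorem disc_gaussO (hϖ : Irreducible ϖ) (N : ℕ) : Disc ϖ (gaussO R N) := by
  intro x hx
  have hx' : (x : LaurentSeries L) ≠ 0 := fun h => hx (Subtype.ext h)
  obtain ⟨m, hm⟩ := (bdd_coe_FF (R := R) x).exists_not_isGInt hϖ hx'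
  refine ⟨m, fun h => hm ?_⟩
  rw [mem_gaussO, IntermediateField.coe_div, IntermediateField.coe_pow, coe_algebraMap_C] at h
  exact h

theorem gaussRing_Ozero (hϖ : Irreducible ϖ) : GaussRing ϖ (Ozero R q M0) := by
  exact Basic_gaussRing_comap _ (gaussRing R _ hϖ)

theorem gaussRing_Ozero' (hϖ : Irreducible ϖ) : GaussRing ϖ (Ozero' R q M0) := by
  exact Basic_gaussRing_comap _ (gaussRing R _ hϖ)

theorem disc_Ozero' (hϖ : Irreducible ϖ) : Disc ϖ (Ozero' R q M0) := by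
  exact Basic_disc_comap _ (disc_gaussO hϖ _)

end

end Fermat.Agent.GT.Val
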