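import Fermat.Agent.GT.Val.Inst.T

/-!
# GT-VAL, layer Inst, file Insep: at `Ozero` the residues of `1, y, ..., y^(q-1)` are linearly independent
over the residue field of `Ozero'`

`w_{q²}(∑ c_k y^k) = ∑ (w_q c_k)(t^q) j(t)^k` (`wQ_sq_up`, `wQ_yF`); `d_k = w_q c_k` is Gauss-integral;
reduction: `∑ (gred d_k)(t^q) jbar^k = 0` (`gredFun_qExpand`, `gredFun_sum`, `gredFun_mul`), `jbar` has a
simple pole; `indep_qExpand`.
-/

set_option autoImplicit false
set_option synthInstance.maxHeartbeats 400000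
set_option linter.unusedSectionVars false

namespace Fermat.Agent.GT.Val

open Fermat.Agent.GR Fermat.Agent.GR.E Fermat.Agent.GR.D.Vert Fermat.Agent.GT.EMB ModularCurve

noncomputable section

theorem Insep_order_jqModC (k : Type*) [Field k] : (jqModC k).order = -1 := by
  have h : (jqModC k).coeff (-1) ≠ 0 := by
    rw [coeff_jqModC_neg_one]
    exact one_ne_zero
  have h1 := HahnSeries.order_le_of_coeff_ne_zero h
  have h0 : jqModC k ≠ 0 := by
    intro h0; rw [h0] at h; exact h rfl
  by_contra hne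
  have hlt : (jqModC k).order < -1 := lt_of_le_of_ne h1 hne
  exact h0 (HahnSeries.coeff_order_eq_zero.1 (coeff_jqModC_of_lt k hlt))

variable {L L' : Type} [Field L] [Field L'] [Algebra L L']
  {R : ValuationSubring L} [IsDiscreteValuationRing R]
  {R' : ValuationSubring L'} [IsDiscreteValuationRing R']
  {q M0 : ℕ} [NeZero q] [NeZero M0] [NeZero (q * M0)] [NeZero (q ^ 2 * M0)] {ζ : L'ˣ} {ϖ : R}

theorem insep_sum (C : Ctx R R' q M0 ζ ϖ) (c : ℕ → FF L (q * M0))
    (hc : ∀ k, c k ∈ Ozero' R q M0)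
    (h : ∑ k ∈ Finset.range q, up (dvd_sq q M0) (c k) * yF L q M0 ^ k ∈ (Ozero R q M0).nonunits) :
    ∀ k < q, c k ∈ (Ozero' R q M0).nonunits := by
  classical
  obtain ⟨-, hred⟩ := mem_nonunits_Ozero.1 h
  set d : ℕ → LaurentSeries L := fun k => (wQ L q M0 (c k) : LaurentSeries L) with hddef
  have hd : ∀ k, IsGInt R (d k) := fun k => mem_Ozero'.1 (hc k)
  have hcoe : (wQ L (q ^ 2) M0 (∑ k ∈ Finset.range q, up (dvd_sq q M0) (c k) * yF L q M0 ^ k) :
      LaurentSeries L) = ∑ k ∈ Finset.range q, qExpand L q (d k) * jd L 1 ^ k := by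
    rw [map_sum, AddSubmonoidClass.coe_finsetSum]
    apply Finset.sum_congr rfl
    intro k _
    rw [map_mul, map_pow, IntermediateField.coe_mul, IntermediateField.coe_pow, wQ_sq_up C, wQ_yF C]
  rw [hcoe] at hred
  have hj : IsGInt R (jd L 1) := by
    rw [jd_eq, qExpand_one_apply]; exact isGInt_j
  have hjr : gredFun R (jd L 1) = jqModC (IsLocalRing.ResidueField R) := by
    rw [jd_eq, qExpand_one_apply]; exact gredFun_j
  rw [gredFun_sum _ _ (fun k _ => (isGInt_qExpand q (hd k)).mul (hj.pow k))] at hred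
  have hred' : ∑ k ∈ Finset.range q, qExpand (IsLocalRing.ResidueField R) q (gredFun R (d k)) *
      (jqModC (IsLocalRing.ResidueField R)) ^ k = 0 := by
    rw [← hred]
    apply Finset.sum_congr rfl
    intro k _
    rw [gredFun_mul (isGInt_qExpand q (hd k)) (hj.pow k), gredFun_qExpand q (hd k),
      gredFun_pow hj, hjr]
  have hz := indep_qExpand q (Insep_order_jqModC _) (fun k => gredFun R (d k)) hred'
  intro k hk
  exact mem_nonunits_Ozero'.2 ⟨hd k, hz k hk⟩

end

end Fermat.Agent.GT.Val
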