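import Fermat.Agent.GT.Val.Inst.Chart
import Fermat.Agent.GT.Val.Norm.Defs

/-!
# GT-VAL, layer Inst, file NormDefs: the two pairs `(φ, Nm)` between level `q² M0` and level `q M0`

`phi1` = inclusion, `phi2` = `t ↦ t^q`.  The norms `N1 N2 : FF L (q² M0) →* FF L (q M0)` are ARBITRARY monoid
homomorphisms satisfying `NormHyp` (product formulas in terms of expansions); whoever defines the
norms over `L` (BRG: `GT/Brg/NormL.lean`) proves `NormHyp` from `EMB.normFF_eq_prod`, `EMB.qExpand_normT`,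
`EMB.normFF_wQ` (see `normHyp_of_compat` in Inst/NormCompat.lean).
-/

set_option autoImplicit false
set_option synthInstance.maxHeartbeats 400000
set_option linter.unusedSectionVars false

namespace Fermat.Agent.GT.Val

open Fermat.Agent.GR Fermat.Agent.GR.E Fermat.Agent.GR.D.Vert Fermat.Agent.GT.EMB ModularCurve
open Fermat.Agent.GT.Glue

noncomputable section

variable {L L' : Type} [Field L] [Field L'] [Algebra L L']
  {R : ValuationSubring L} [IsDiscreteValuationRing R]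
  {R' : ValuationSubring L'} [IsDiscreteValuationRing R']
  {q M0 : ℕ} [NeZero q] [NeZero M0] [NeZero (q * M0)] [NeZero (q ^ 2 * M0)] {ζ : L'ˣ} {ϖ : R}

/-- the inclusion `FF L (q M0) → FF L (q² M0)`. -/
def phi1 (R : ValuationSubring L) (q M0 : ℕ) : FF L (q * M0) →ₐ[R] FF L (q ^ 2 * M0) :=
  (IntermediateField.inclusion (FF_mono L (dvd_sq q M0))).restrictScalars R

/-- `t ↦ t^q`, as an `L`-algebra homomorphism. -/
def V2L (L : Type) [Field L] (q M0 : ℕ) [NeZero q] : FF L (q * M0) →ₐ[L] FF L (q ^ 2 * M0) :=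
  { V2 L q M0 with
    commutes' := fun c => Level_expHom_algebraMap L q (q * M0) (q ^ 2 * M0) ⟨1, by ring⟩ c }

/-- `t ↦ t^q : FF L (q M0) → FF L (q² M0)`. -/
def phi2 (R : ValuationSubring L) (q M0 : ℕ) [NeZero q] :
    FF L (q * M0) →ₐ[R] FF L (q ^ 2 * M0) :=
  (V2L L q M0).restrictScalars R

theorem phi1_apply (f : FF L (q * M0)) : phi1 R q M0 f = up (dvd_sq q M0) f := rfl

theorem phi2_apply (f : FF L (q * M0)) : phi2 R q M0 f = V2 L q M0 f := rfl

/-- What is needed from the two norms. -/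
structure NormHyp (q M0 : ℕ) [NeZero q] [NeZero (q * M0)] [NeZero (q ^ 2 * M0)] (ζ : L'ˣ)
    (N1 N2 : FF L (q ^ 2 * M0) →* FF L (q * M0)) : Prop where
  /-- `N1 x = x ∏_a ι_a(x)` -/
  prod1 : ∀ x, coeffMap (algebraMap L L') (N1 x : LaurentSeries L) =
    coeffMap (algebraMap L L') (x : LaurentSeries L) *
      ∏ a ∈ Finset.Ico 1 q, midHom q M0 (ζ ^ a) x
  /-- `(N2 x)(t^q) = ∏_j x(ζ^j t)` -/
  prod2 : ∀ x, qExpand L' q (coeffMap (algebraMap L L') (N2 x : LaurentSeries L)) =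
    ∏ j ∈ Finset.range q, scaleHom (ζ ^ j) (coeffMap (algebraMap L L') (x : LaurentSeries L))
  /-- `w_q (N1 x) = N2 (w_{q²} x)` -/
  swap : ∀ x, wQ L q M0 (N1 x) = N2 (wQ L (q ^ 2) M0 x)

end

end Fermat.Agent.GT.Val
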