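import Fermat.Agent.GT.Val.Inst.Basic

/-!
# GT-VAL, layer Inst, file T: the function `T = j(t^{q²}) - j(t)`

`T` is a unit of `Oinf` (integral series with leading coefficient `1`);
`midHom T = j(ζ t) - j(t) = (ζ - 1) g`, `g` integral with `g_{-1} = -ζ⁻¹` (`exists_scaleHom_sub`), so `g` is a
unit of the Gauss ring; `q / (ζ - 1)^(q-1)` is a unit of `R'` (`prime_div_root_sub_one_pow`).
-/

set_option autoImplicit false
set_option synthInstance.maxHeartbeats 400000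
set_option linter.unusedSectionVars false

namespace Fermat.Agent.GT.Val

open Fermat.Agent.GR Fermat.Agent.GR.E Fermat.Agent.GR.D.Vert Fermat.Agent.GT.EMB ModularCurve

noncomputable section

variable {L L' : Type} [Field L] [Field L'] [Algebra L L']
  {R : ValuationSubring L} [IsDiscreteValuationRing R]
  {R' : ValuationSubring L'} [IsDiscreteValuationRing R']
  {q M0 : ℕ} [NeZero q] [NeZero M0] [NeZero (q * M0)] [NeZero (q ^ 2 * M0)] {ζ : L'ˣ} {ϖ : R}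

/-- `y = j(t^{q²})`. -/
def yF (L : Type) [Field L] (q M0 : ℕ) [NeZero (q ^ 2 * M0)] : FF L (q ^ 2 * M0) :=
  gen L (q ^ 2 * M0) (q ^ 2) (Dvd.intro _ rfl)

/-- `a = j(t)` at level `q M0`. -/
def aF (L : Type) [Field L] (q M0 : ℕ) [NeZero (q * M0)] : FF L (q * M0) :=
  gen L (q * M0) 1 (one_dvd _)

/-- `T = j(t^{q²}) - j(t)`. -/
def TF (L : Type) [Field L] (q M0 : ℕ) [NeZero (q * M0)] [NeZero (q ^ 2 * M0)] :
    FF L (q ^ 2 * M0) :=
  yF L q M0 - up (dvd_sq q M0) (aF L q M0)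

theorem coe_TF : (TF L q M0 : LaurentSeries L) = jd L (q ^ 2) - jd L 1 := by
  rw [TF, sub_eq_add_neg, IntermediateField.coe_add, IntermediateField.coe_neg, coe_up, yF, aF,
    coe_gen, coe_gen, ← sub_eq_add_neg]

/-- constants of the valuation ring are Gauss-integral. -/
theorem t_isGInt_C {K : Type*} [Field K] {RK : ValuationSubring K} [IsDiscreteValuationRing RK]
    {c : K} (hc : c ∈ RK) : IsGInt RK (HahnSeries.C c : LaurentSeries K) := by
  have h : (HahnSeries.C c : LaurentSeries K) = Fermat.Agent.S28.embL RK K (HahnSeries.C (⟨c, hc⟩ : RK)) := by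
    rw [Fermat.Agent.GR.D.Vert.coeffMap_C]
    rfl
  rw [h]
  exact isGInt_emb _

theorem t_gredFun_C {K : Type*} [Field K] {RK : ValuationSubring K} [IsDiscreteValuationRing RK]
    {c : K} (hc : c ∈ RK.nonunits) : gredFun RK (HahnSeries.C c : LaurentSeries K) = 0 := by
  have hc' : c ∈ RK := RK.nonunits_subset hc
  have h : (HahnSeries.C c : LaurentSeries K) = Fermat.Agent.S28.embL RK K (HahnSeries.C (⟨c, hc'⟩ : RK)) := by
    rw [Fermat.Agent.GR.D.Vert.coeffMap_C]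
    rfl
  rw [h, gredFun_emb, Fermat.Agent.GR.D.Vert.coeffMap_C]
  have : IsLocalRing.residue RK (⟨c, hc'⟩ : RK) = 0 := by
    rw [IsLocalRing.residue_eq_zero_iff]
    exact ValuationSubring.coe_mem_nonunits_iff.mp hc
  rw [this, map_zero]

theorem t_isInt_jd {K : Type*} [Field K] (RK : ValuationSubring K) (d : ℕ) :
    IsInt RK (jd K d) := by
  by_cases h : d = 0
  · subst h
    have h0 : jd K 0 = 0 := dif_pos rfl
    rw [h0]
    exact M1_isInt_zero RK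
  · have : NeZero d := ⟨h⟩
    rw [jd_eq]
    exact (M1_isPrim_gen RK d).1

theorem t_coeff_jd_sq (C : Ctx R R' q M0 ζ ϖ) : (jd L (q ^ 2)).coeff (-1) = 0 := by
  rw [jd_eq]
  apply qExpand_coeff_of_not_dvd
  intro h
  have h1 : ((q ^ 2 : ℕ) : ℤ) ∣ 1 := by simpa using h
  have h2 : q ^ 2 ∣ 1 := by exact_mod_cast h1
  have h3 := Nat.dvd_one.mp h2
  have h4 := C.prime.two_le
  nlinarith

theorem t_isPrim_TF (C : Ctx R R' q M0 ζ ϖ) : IsPrim R (TF L q M0 : LaurentSeries L) := by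
  rw [coe_TF]
  refine ⟨?_, -1, ?_⟩
  · rw [sub_eq_add_neg]
    exact M1_isInt_add R (t_isInt_jd R _) (M1_isInt_neg R (t_isInt_jd R _))
  · rw [HahnSeries.coeff_sub, t_coeff_jd_sq C, Middle_coeff_jd_one, zero_sub]
    intro h
    rw [ValuationSubring.mem_nonunits_iff_exists_mem_maximalIdeal] at h
    obtain ⟨ha, h⟩ := h
    apply (IsLocalRing.mem_maximalIdeal _).mp h
    have : (⟨-1, ha⟩ : R) = -1 := rfl
    rw [this]
    exact isUnit_one.neg

theorem TF_ne_zero (C : Ctx R R' q M0 ζ ϖ) : TF L q M0 ≠ 0 := by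
  intro h
  apply M1_isPrim_ne_zero R (t_isPrim_TF C)
  rw [h, IntermediateField.coe_zero]

theorem TF_mem_Oinf (C : Ctx R R' q M0 ζ ϖ) : TF L q M0 ∈ Oinf R q M0 :=
  mem_Oinf.mpr (gredFun_ne_zero_of_isPrim (t_isPrim_TF C)).1

theorem TF_inv_mem_Oinf (C : Ctx R R' q M0 ζ ϖ) : (TF L q M0)⁻¹ ∈ Oinf R q M0 := by
  rw [mem_Oinf, IntermediateField.coe_inv]
  obtain ⟨h1, h2⟩ := gredFun_ne_zero_of_isPrim (t_isPrim_TF C)
  exact h1.inv h2

theorem midHom_TF (C : Ctx R R' q M0 ζ ϖ) :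
    midHom q M0 ζ (TF L q M0) = scaleHom ζ (jd L' 1) - jd L' 1 := by
  rw [TF, map_sub]
  congr 1
  · rw [midHom_qExpand_sq C (gen L M0 1 (one_dvd _)) (yF L q M0)
      (by rw [yF, coe_gen, coe_gen, qExpand_jd, mul_one]), coe_gen, coeffMap_jd]
  · rw [midHom_of_mem C _ (by rw [coe_up]; exact (aF L q M0).2), coe_up, aF, coe_gen, coeffMap_jd]

theorem t_root_sub_one_ne_zero (C : Ctx R R' q M0 ζ ϖ) : (ζ : L') - 1 ≠ 0 := by
  intro h
  have h1 : ζ = 1 := Units.ext (by rw [Units.val_one]; exact sub_eq_zero.mp h)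
  have h2 := C.root.eq_orderOf
  rw [h1, orderOf_one] at h2
  exact C.prime.one_lt.ne' h2

/-- the series `g = (j(ζ t) - j(t)) / (ζ - 1)`. -/
theorem t_exists_g (C : Ctx R R' q M0 ζ ϖ) :
    ∃ g : LaurentSeries L', IsPrim R' g ∧
      midHom q M0 ζ (TF L q M0) = HahnSeries.C ((ζ : L') - 1) * g := by
  obtain ⟨h1, h2⟩ := root_mem (RK := R') C.prime.pos ζ C.root.pow_eq_one
  obtain ⟨g, hg, hsub, hcoeff⟩ := exists_scaleHom_sub ζ h1 h2 (t_isInt_jd R' 1)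
  refine ⟨g, ⟨hg, -1, ?_⟩, by rw [midHom_TF C, hsub]⟩
  rw [hcoeff, Middle_coeff_jd_one, mul_one]
  intro h
  rw [ValuationSubring.mem_nonunits_iff_exists_mem_maximalIdeal] at h
  obtain ⟨ha, h⟩ := h
  apply (IsLocalRing.mem_maximalIdeal _).mp h
  refine IsUnit.of_mul_eq_one (⟨-(ζ : L'), R'.neg_mem _ h1⟩ : R') ?_
  apply Subtype.ext
  show -((ζ⁻¹ : L'ˣ) : L') * -(ζ : L') = 1
  rw [neg_mul_neg, Units.inv_mul]

/-- `midHom T / (ζ - 1)` is a unit of the Gauss ring. -/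
theorem midHom_TF_div (C : Ctx R R' q M0 ζ ϖ) :
    IsGInt R' (midHom q M0 ζ (TF L q M0) / HahnSeries.C ((ζ : L') - 1)) ∧
      gredFun R' (midHom q M0 ζ (TF L q M0) / HahnSeries.C ((ζ : L') - 1)) ≠ 0 := by
  obtain ⟨g, hg, h⟩ := t_exists_g C
  have hne : (HahnSeries.C ((ζ : L') - 1) : LaurentSeries L') ≠ 0 :=
    (map_ne_zero_iff _ HahnSeries.C_injective).mpr (t_root_sub_one_ne_zero C)
  rw [h, mul_div_cancel_left₀ _ hne]
  exact gredFun_ne_zero_of_isPrim hg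

theorem TF_mem_nonunits_Omid (C : Ctx R R' q M0 ζ ϖ) :
    TF L q M0 ∈ (Omid (L := L) R' q M0 ζ).nonunits := by
  rw [mem_nonunits_Omid C]
  obtain ⟨g, hg, h⟩ := t_exists_g C
  have hnu := root_sub_one_mem_nonunits (RK := R') C.prime C.q_mem_nonunits ζ C.root.pow_eq_one
  have h1 := t_isGInt_C (R'.nonunits_subset hnu)
  have h2 := (gredFun_ne_zero_of_isPrim hg).1
  rw [h]
  exact ⟨h1.mul h2, by rw [gredFun_mul h1 h2, t_gredFun_C hnu, zero_mul]⟩

theorem t_midHom_unif (C : Ctx R R' q M0 ζ ϖ) :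
    midHom q M0 ζ (algebraMap R (FF L (q ^ 2 * M0)) ϖ) = HahnSeries.C (q : L') := by
  rw [midHom_of_mem C _ (by rw [C.algebraMap_unif]; exact M1_C_mem_FF _ _), C.algebraMap_unif,
    Fermat.Agent.GR.D.Vert.coeffMap_C, map_natCast]

theorem t_isGInt_pow {K : Type*} [Field K] {RK : ValuationSubring K} [IsDiscreteValuationRing RK]
    {x : LaurentSeries K} (hx : IsGInt RK x) (n : ℕ) : IsGInt RK (x ^ n) :=
  (gaussQ RK K).pow_mem hx n

theorem unif_div_TF_pow_mem (C : Ctx R R' q M0 ζ ϖ) :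
    algebraMap R (FF L (q ^ 2 * M0)) ϖ / TF L q M0 ^ (q - 1) ∈ Omid (L := L) R' q M0 ζ := by
  rw [mem_Omid C, map_div₀, map_pow, t_midHom_unif C]
  obtain ⟨g, hg, h⟩ := t_exists_g C
  obtain ⟨hg1, hg2⟩ := gredFun_ne_zero_of_isPrim hg
  have hu := (prime_div_root_sub_one_pow (RK := R') C.prime ζ C.root).1
  have e : (HahnSeries.C (q : L') : LaurentSeries L') / (HahnSeries.C ((ζ : L') - 1) * g) ^ (q - 1)
      = HahnSeries.C ((q : L') / ((ζ : L') - 1) ^ (q - 1)) * g⁻¹ ^ (q - 1) := by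
    rw [map_div₀, map_pow, mul_pow, inv_pow, div_mul_eq_div_div, div_eq_mul_inv _ (g ^ (q - 1))]
  rw [h, e]
  exact (t_isGInt_C hu).mul (t_isGInt_pow (hg1.inv hg2) _)

theorem TF_pow_div_unif_mem (C : Ctx R R' q M0 ζ ϖ) :
    TF L q M0 ^ (q - 1) / algebraMap R (FF L (q ^ 2 * M0)) ϖ ∈ Omid (L := L) R' q M0 ζ := by
  rw [mem_Omid C, map_div₀, map_pow, t_midHom_unif C]
  obtain ⟨g, hg, h⟩ := t_exists_g C
  obtain ⟨hg1, hg2⟩ := gredFun_ne_zero_of_isPrim hg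
  have hu := (prime_div_root_sub_one_pow (RK := R') C.prime ζ C.root).2
  have e : (HahnSeries.C ((ζ : L') - 1) * g) ^ (q - 1) / (HahnSeries.C (q : L') : LaurentSeries L')
      = HahnSeries.C (((ζ : L') - 1) ^ (q - 1) / (q : L')) * g ^ (q - 1) := by
    rw [map_div₀, map_pow, mul_pow]
    ring
  rw [h, e]
  exact (t_isGInt_C hu).mul (t_isGInt_pow hg1 _)

theorem T_isGInt_jd (d : ℕ) [NeZero d] : IsGInt R (jd L d) := by
  rw [jd_eq]
  exact isGInt_qExpand d isGInt_j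

theorem T_gredFun_jd (d : ℕ) [NeZero d] :
    gredFun R (jd L d) = jd (IsLocalRing.ResidueField R) d := by
  rw [jd_eq, jd_eq, gredFun_qExpand d isGInt_j, gredFun_j]

theorem T_alIdx_self (Q : ℕ) (hQ : Q ≠ 0) : alIdx Q Q = 1 := by
  have h : 0 < Q := Nat.pos_of_ne_zero hQ
  rw [alIdx, Nat.gcd_self, Nat.div_self h]

theorem T_alIdx_one (Q : ℕ) : alIdx Q 1 = Q := by
  rw [alIdx, Nat.gcd_one_left, Nat.div_one, Nat.div_one, mul_one]

theorem T_charP (C : Ctx R R' q M0 ζ ϖ) : CharP (IsLocalRing.ResidueField R) q := by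
  rw [CharP.charP_iff_prime_eq_zero C.prime]
  have h1 : ((q : ℕ) : R) = ϖ := Subtype.ext (by rw [C.unif]; simp)
  have h2 : IsLocalRing.residue R ϖ = 0 := by
    rw [IsLocalRing.residue_eq_zero_iff]
    exact C.irr.not_isUnit
  rw [← map_natCast (IsLocalRing.residue R), h1, h2]

theorem T_jd_sq {k : Type*} [Field k] (q : ℕ) [NeZero q] [CharP k q] (hq : q.Prime) :
    jd k (q ^ 2) = jd k q ^ q := by
  have : NeZero (q ^ 2) := ⟨pow_ne_zero _ (NeZero.ne q)⟩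
  have h1 : jd k q = coeffMap (Int.castRingHom k) (qExpand ℤ q (jqModC ℤ)) := by
    rw [jd_eq, coeffMap_qExpand, coeffMap_jqModC]
  rw [h1, ← qExpand_eq_pow q hq, ← h1, jd_eq, jd_eq, qExpand_qExpand]
  exact qExpand_congr (sq q) _

theorem aF_mem (C : Ctx R R' q M0 ζ ϖ) : aF L q M0 ∈ gaussO R (q * M0) := by
  show IsGInt R ((aF L q M0 : FF L (q * M0)) : LaurentSeries L)
  rw [aF, coe_gen]
  exact T_isGInt_jd 1

theorem aF_mem' (C : Ctx R R' q M0 ζ ϖ) : aF L q M0 ∈ Ozero' R q M0 := by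
  obtain ⟨ι⟩ := C.exists_embC'
  rw [mem_Ozero', aF, wQ_gen ι q M0 C.coprime, T_alIdx_one]
  exact T_isGInt_jd q

/-- `w_{q²} y = j(t)`. -/
theorem wQ_yF (C : Ctx R R' q M0 ζ ϖ) : (wQ L (q ^ 2) M0 (yF L q M0) : LaurentSeries L) = jd L 1 := by
  obtain ⟨ι⟩ := C.exists_embC'
  rw [yF, wQ_gen ι (q ^ 2) M0 C.coprime_sq, T_alIdx_self _ (pow_ne_zero _ (NeZero.ne q))]

theorem yF_mem_Ozero (C : Ctx R R' q M0 ζ ϖ) : yF L q M0 ∈ Ozero R q M0 := by
  rw [mem_Ozero, wQ_yF C]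
  exact T_isGInt_jd 1

/-- `b = j(t^q)^q` at level `q M0`: `y ≡ b` modulo `𝔪(Oinf)`. -/
def bF (L : Type) [Field L] (q M0 : ℕ) [NeZero (q * M0)] : FF L (q * M0) :=
  gen L (q * M0) q (Dvd.intro _ rfl) ^ q

theorem T_coe_bF : ((bF L q M0 : FF L (q * M0)) : LaurentSeries L) = jd L q ^ q := by
  rw [bF, IntermediateField.coe_pow, coe_gen]

theorem bF_mem (C : Ctx R R' q M0 ζ ϖ) : bF L q M0 ∈ gaussO R (q * M0) := by
  show IsGInt R ((bF L q M0 : FF L (q * M0)) : LaurentSeries L)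
  rw [T_coe_bF]
  exact (T_isGInt_jd q).pow q

theorem bF_mem' (C : Ctx R R' q M0 ζ ϖ) : bF L q M0 ∈ Ozero' R q M0 := by
  obtain ⟨ι⟩ := C.exists_embC'
  rw [mem_Ozero', bF, map_pow, IntermediateField.coe_pow, wQ_gen ι q M0 C.coprime,
    T_alIdx_self _ (NeZero.ne q)]
  exact (T_isGInt_jd 1).pow q

/-- `j(t^{q²}) ≡ j(t^q)^q` (`gredFun_qExpand`, `qExpand_eq_pow`; `jd L d` is the image of an integral
series). -/
theorem yF_sub_bF_mem (C : Ctx R R' q M0 ζ ϖ) :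
    yF L q M0 - up (dvd_sq q M0) (bF L q M0) ∈ (Oinf R q M0).nonunits := by
  have : NeZero (q ^ 2) := ⟨pow_ne_zero _ (NeZero.ne q)⟩
  have : CharP (IsLocalRing.ResidueField R) q := T_charP C
  have hy : ((yF L q M0 : FF L (q ^ 2 * M0)) : LaurentSeries L) = jd L (q ^ 2) := by
    rw [yF, coe_gen]
  have hb : ((up (dvd_sq q M0) (bF L q M0) : FF L (q ^ 2 * M0)) : LaurentSeries L) = jd L q ^ q := by
    rw [coe_up, T_coe_bF]
  have h1 : yF L q M0 ∈ gaussO R (q ^ 2 * M0) := by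
    show IsGInt R ((yF L q M0 : FF L (q ^ 2 * M0)) : LaurentSeries L)
    rw [hy]
    exact T_isGInt_jd _
  have h2 : up (dvd_sq q M0) (bF L q M0) ∈ gaussO R (q ^ 2 * M0) := by
    show IsGInt R ((up (dvd_sq q M0) (bF L q M0) : FF L (q ^ 2 * M0)) : LaurentSeries L)
    rw [hb]
    exact (T_isGInt_jd q).pow q
  refine (sub_mem_nonunits_gaussO h1 h2).mpr ?_
  rw [hy, hb, gredFun_pow (T_isGInt_jd q), T_gredFun_jd, T_gredFun_jd]
  exact T_jd_sq q C.prime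

end

end Fermat.Agent.GT.Val
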