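import Fermat.Agent.GT.Val.Inst.Mid
import Fermat.Agent.GT.Val.Tower.Main

/-!
# GT-VAL, layer Inst, file Tower: `VTower`, `ResEq` for `FF L M0 ⊆ FF L (q² M0)`

from `BaseData` (level `q M0` over level `M0`; = `GS.Inst.towerData` of helper63, see
`baseData_of_towerData` in Inst/Base.lean) and `midData`: `vTower_of_midData`, `resEq_mid`,
`resEq_inf` (with `b = bF`, `yF_sub_bF_mem`).  Only instance plumbing (`letI := algFF ..`,
`haveI := isScalarTower_algFF ..`).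
-/

set_option autoImplicit false
set_option synthInstance.maxHeartbeats 400000
set_option linter.unusedSectionVars false

namespace Fermat.Agent.GT.Val

open Fermat.Agent.GR Fermat.Agent.GR.E Fermat.Agent.GR.D.Vert Fermat.Agent.GT.EMB ModularCurve

noncomputable section

variable {L L' : Type} [Field L] [Field L'] [Algebra L L']
  {R : ValuationSubring L} [IsDiscreteValuationRing R]
  {R' : ValuationSubring L'} [IsDiscreteValuationRing R']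
  {q M0 : ℕ} [NeZero q] [NeZero M0] [NeZero (q * M0)] [NeZero (q ^ 2 * M0)] {ζ : L'ˣ} {ϖ : R}

/-! ### the abstract statements for three arbitrary levels; all instances are given explicitly (so
that instance search never has to compare `FF L N`, `FF L N'`) -/

section aux

variable {N0 N1 N2 : ℕ} {𝒪0 : ValuationSubring (FF L N0)} {𝒪'₁ 𝒪'₂ : ValuationSubring (FF L N1)}
  {𝒪 : Fin 3 → ValuationSubring (FF L N2)} {e : ℕ} {y : FF L N2} {a : FF L N1}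

theorem Tower_vTower_aux (h01 : N0 ∣ N1) (h12 : N1 ∣ N2) (h02 : N0 ∣ N2)
    (B : letI := algFF L h01; BaseData ϖ 𝒪0 𝒪'₁ 𝒪'₂)
    (D : letI := algFF L h12; MidData ϖ 𝒪'₁ 𝒪'₂ 𝒪 e y a) :
    letI := algFF L h02
    VTower ϖ 𝒪0 𝒪 :=
  @vTower_of_midData R _ _ _ (FF L N0) (FF L N1) (FF L N2) _ _ _ _ _ _ (algFF L h01) (algFF L h12)
    (algFF L h02) (isScalarTower_algFF h01) (isScalarTower_algFF h12) (isScalarTower_algFF h02)
    (isScalarTower_algFF₃ h01 h12) ϖ 𝒪0 𝒪'₁ 𝒪'₂ 𝒪 e y a B D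

theorem Tower_resEq_inf_aux (h01 : N0 ∣ N1) (h12 : N1 ∣ N2) (h02 : N0 ∣ N2)
    (B : letI := algFF L h01; BaseData ϖ 𝒪0 𝒪'₁ 𝒪'₂)
    (D : letI := algFF L h12; MidData ϖ 𝒪'₁ 𝒪'₂ 𝒪 e y a) {b : FF L N1}
    (hb₁ : b ∈ 𝒪'₁) (hb₂ : b ∈ 𝒪'₂) (hyb : y - up h12 b ∈ (𝒪 0).nonunits) :
    letI := algFF L h02
    ResEq 𝒪0 𝒪 0 :=
  @resEq_inf R _ _ _ (FF L N0) (FF L N1) (FF L N2) _ _ _ _ _ _ (algFF L h01) (algFF L h12)
    (algFF L h02) (isScalarTower_algFF h01) (isScalarTower_algFF h12) (isScalarTower_algFF h02)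
    (isScalarTower_algFF₃ h01 h12) ϖ 𝒪0 𝒪'₁ 𝒪'₂ 𝒪 e y a B D b hb₁ hb₂ hyb

theorem Tower_resEq_mid_aux (h01 : N0 ∣ N1) (h12 : N1 ∣ N2) (h02 : N0 ∣ N2)
    (B : letI := algFF L h01; BaseData ϖ 𝒪0 𝒪'₁ 𝒪'₂)
    (D : letI := algFF L h12; MidData ϖ 𝒪'₁ 𝒪'₂ 𝒪 e y a) :
    letI := algFF L h02
    ResEq 𝒪0 𝒪 1 :=
  @resEq_mid R _ _ _ (FF L N0) (FF L N1) (FF L N2) _ _ _ _ _ _ (algFF L h01) (algFF L h12)
    (algFF L h02) (isScalarTower_algFF h01) (isScalarTower_algFF h12) (isScalarTower_algFF h02)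
    (isScalarTower_algFF₃ h01 h12) ϖ 𝒪0 𝒪'₁ 𝒪'₂ 𝒪 e y a B D

theorem Tower_vertFam_aux (h02 : N0 ∣ N2)
    (T : letI := algFF L h02; VTower ϖ 𝒪0 𝒪) : VertFam ϖ 𝒪 :=
  @VTower.vertFam R _ _ _ (FF L N0) (FF L N2) _ _ _ _ (algFF L h02) (isScalarTower_algFF h02) _
    ϖ 𝒪0 𝒪 T

end aux

/-- the hypothesis consumed from GS-INST. -/
def BaseHyp (R : ValuationSubring L) [IsDiscreteValuationRing R] (q M0 : ℕ) [NeZero (q * M0)]
    (ϖ : R) : Prop :=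
  letI := algFF L (dvd_q0 q M0)
  BaseData ϖ (gaussO R M0) (gaussO R (q * M0)) (Ozero' R q M0)

theorem vTower (C : Ctx R R' q M0 ζ ϖ) (B : BaseHyp R q M0 ϖ) :
    letI := algFF L (dvd_sq0 q M0)
    VTower ϖ (gaussO R M0) (vfam R R' q M0 ζ) := by
  exact Tower_vTower_aux (dvd_q0 q M0) (dvd_sq q M0) (dvd_sq0 q M0) B (midData C)

theorem resEq_zero (C : Ctx R R' q M0 ζ ϖ) (B : BaseHyp R q M0 ϖ) :
    letI := algFF L (dvd_sq0 q M0)
    ResEq (gaussO R M0) (vfam R R' q M0 ζ) 0 := by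
  exact Tower_resEq_inf_aux (dvd_q0 q M0) (dvd_sq q M0) (dvd_sq0 q M0) B (midData C) (bF_mem C)
    (bF_mem' C) (yF_sub_bF_mem C)

theorem resEq_one (C : Ctx R R' q M0 ζ ϖ) (B : BaseHyp R q M0 ϖ) :
    letI := algFF L (dvd_sq0 q M0)
    ResEq (gaussO R M0) (vfam R R' q M0 ζ) 1 := by
  exact Tower_resEq_mid_aux (dvd_q0 q M0) (dvd_sq q M0) (dvd_sq0 q M0) B (midData C)

theorem vertFam (C : Ctx R R' q M0 ζ ϖ) (B : BaseHyp R q M0 ϖ) :
    VertFam ϖ (vfam R R' q M0 ζ) := by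
  exact Tower_vertFam_aux (dvd_sq0 q M0) (vTower C B)

end

end Fermat.Agent.GT.Val
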